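import Fermat.Agent.S55.GU.Hyps
import Fermat.Agent.S55.G3.TsDefs
import Fermat.Agent.S55.G.DescentC

/-!
# S55, root `G_levelU`: `HasImage` from chapter G3 (`exists_smul_mem_image`)
-/

set_option autoImplicit false
set_option linter.unusedSectionVars false
set_option linter.unusedVariables false
set_option linter.style.haveILetI false

namespace Fermat.Agent.S55Lib

noncomputable section

variable {p : ℕ} (S : Finset Nat.Primes)

lemma GU_finiteDimensional_of_mem (F : IntermediateField ℚ Qbar)
    (hF : F.fixingSubgroup ∈ (levS S).mem) : FiniteDimensional ℚ F := by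
  obtain ⟨F', hfd, -, -, h⟩ := hF
  have h1 : F' = F := by
    rw [← InfiniteGalois.fixedField_fixingSubgroup F', ← InfiniteGalois.fixedField_fixingSubgroup F,
      h]
  rw [← h1]
  exact hfd

theorem hasImage_of
    (hTS : ∀ (U : Subgroup GQ) [U.Normal] (hU : U ∈ (levS S).mem), FixesMu p U →
      ∀ x : inv U (CSh S), ∃ m : ℕ, m.Coprime p ∧ ∃ c, toCSh S U hU c = m • x) :
    HasImage p S := by
  intro F hF hμ c hc
  haveI := (levS S).normal _ hF
  haveI := GU_finiteDimensional_of_mem S F hF
  obtain ⟨m, hm, c', hc'⟩ := hTS _ hF hμ ⟨c, hc⟩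
  obtain ⟨x, hx, hxc⟩ := exists_JF_of_mem_CF F (Additive.toMul (c' : AC))
    (fun s hs => congrArg Additive.toMul (c'.2 s hs))
  refine ⟨m, hm, Additive.ofMul (⟨x, hx⟩ : ↥(JF F)), ?_⟩
  have h1 : (toCSh S _ hF c' : CSh S) = m • c := congrArg Subtype.val hc'
  rw [← h1]
  show WCoker.mk GQ (upsS S) (upsS_equivar S) _ = WCoker.mk GQ (upsS S) (upsS_equivar S) _
  congr 1
  apply Subtype.ext
  exact congrArg Additive.ofMul hxc

end

end Fermat.Agent.S55Lib
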