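import Fermat.Agent.S55.GU.Root
import Fermat.Agent.S55.G.RootG1a
import Fermat.Agent.S55.G1b.CardJTMod

/-!
# S55, root `G_levelU`: the inputs from chapter G1
-/

set_option autoImplicit false
set_option linter.unusedSectionVars false
set_option linter.unusedVariables false

namespace Fermat.Agent.S55Lib

noncomputable section

theorem g1Inputs (p : ℕ) [Fact p.Prime] (hp2 : p ≠ 2) : G1Inputs p where
  TU := fun F _ hμ T t ht => card_TUnits_mod_p p hp2 F hμ T t ht
  JTc := fun F _ hμ T hpT t ht => card_JT_mod_p p hp2 F hμ T hpT t ht
  CN := fun F _ => exists_classNumber F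
  CT := fun F _ => exists_T_classGroup_trivial F
  PC := fun F _ T => exists_isPlaceCount F T

end

end Fermat.Agent.S55Lib
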