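import Fermat.Agent.S55.GU.AbsRel

/-! # S55 GU (AB3): the counting identity `D₁ = e · |Cl[p]|` -/

set_option autoImplicit false
set_option linter.unusedVariables false

namespace Fermat.Agent.S55Lib

/-- `D₁ = e · |Cl[p]|`.  `E = A ⊓ φ⁻¹(W)`, `W = Uu ⊔ Js`, `H = P ⊔ W`.
`[Δ₁ : A^p] = [Δ₁ : E A^p] [E A^p : A^p]`, `[E A^p : A^p] = [E : E ⊓ A^p] = [E : E^p]` (`hsat`),
`[Δ₁ : E A^p] = [H' : H]`, `H' = {z ∈ J | z^p ∈ H}`, by (AB1) with `R a z := z ^ p / φ a ∈ W`. -/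
theorem GU_count1 {G G' : Type} [CommGroup G] [CommGroup G'] (p : ℕ) (φ : G' →* G)
    (A : Subgroup G') (J Uu Js : Subgroup G) (hA : A.map φ ≤ J) (hU : Uu ≤ J) (hJs : Js ≤ J)
    (hsat : ∀ z ∈ J, z ^ p ∈ Uu ⊔ Js → z ∈ Uu ⊔ Js) :
    (A.map (powMonoidHom p)).relIndex (A ⊓ (Uu ⊔ Js ⊔ J.map (powMonoidHom p)).comap φ) =
      ((A ⊓ (Uu ⊔ Js).comap φ).map (powMonoidHom p)).relIndex (A ⊓ (Uu ⊔ Js).comap φ) *
        (A.map φ ⊔ Uu ⊔ Js).relIndex (J ⊓ (A.map φ ⊔ Uu ⊔ Js).comap (powMonoidHom p)) := by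
  rw [sup_assoc (A.map φ) Uu Js]
  set W := Uu ⊔ Js with hW
  set Jp := J.map (powMonoidHom p) with hJp
  set Ap := A.map (powMonoidHom p) with hAp
  set E := A ⊓ W.comap φ with hE
  set H := A.map φ ⊔ W with hH
  set D := A ⊓ (W ⊔ Jp).comap φ with hD
  have hφJ : ∀ a ∈ A, φ a ∈ J := fun a ha => hA ⟨a, ha, rfl⟩
  have hED : E ≤ D := fun a ha => ⟨ha.1, le_sup_left (b := Jp) ha.2⟩
  have hApD : Ap ≤ D := by
    rintro _ ⟨a, ha, rfl⟩
    refine ⟨pow_mem ha p, ?_⟩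
    show φ (a ^ p) ∈ W ⊔ Jp
    rw [map_pow]
    exact le_sup_right (a := W) ⟨φ a, hφJ a ha, rfl⟩
  have e1 : Ap.relIndex D = Ap.relIndex (E ⊔ Ap) * (E ⊔ Ap).relIndex D :=
    (Subgroup.relIndex_mul_relIndex Ap (E ⊔ Ap) D le_sup_right (sup_le hED hApD)).symm
  have e2 : Ap.relIndex (E ⊔ Ap) = (E.map (powMonoidHom p)).relIndex E := by
    rw [Subgroup.relIndex_sup_right, ← Subgroup.inf_relIndex_right]
    congr 1
    ext x
    constructor
    · rintro ⟨⟨a, ha, rfl⟩, hx⟩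
      refine ⟨a, ⟨ha, ?_⟩, rfl⟩
      apply hsat _ (hφJ a ha)
      have := hx.2
      rw [← map_pow]
      exact this
    · rintro ⟨a, ha, rfl⟩
      exact ⟨⟨a, ha.1, rfl⟩, pow_mem ha p⟩
  have e3 : (E ⊔ Ap).relIndex D = H.relIndex (J ⊓ H.comap (powMonoidHom p)) := by
    refine GU_relIndex_of_rel (E ⊔ Ap) D H (J ⊓ H.comap (powMonoidHom p))
      (fun a z => z ^ p / φ a ∈ W) ?_ ?_ ?_ ?_
    · intro x x' y y' h h'
      have : (y * y') ^ p / φ (x * x') = (y ^ p / φ x) * (y' ^ p / φ x') := by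
        rw [map_mul, mul_pow, mul_div_mul_comm]
      rw [this]
      exact mul_mem h h'
    · rintro a ⟨ha, ha'⟩
      obtain ⟨w, hw, _, ⟨z, hz, rfl⟩, hwz⟩ := Subgroup.mem_sup.1 ha'
      have hwz' : w * z ^ p = φ a := hwz
      have h1 : z ^ p / φ a = w⁻¹ := by rw [← hwz']; simp
      have h2 : z ^ p = φ a * w⁻¹ := by rw [← hwz']; simp
      refine ⟨z, ⟨hz, ?_⟩, by rw [h1]; exact inv_mem hw⟩
      show z ^ p ∈ H
      rw [h2]
      exact H.mul_mem (le_sup_left (b := W) ⟨a, ha, rfl⟩) (le_sup_right (a := A.map φ) (inv_mem hw))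
    · rintro z ⟨hz, hz'⟩
      obtain ⟨_, ⟨a, ha, rfl⟩, w, hw, haw⟩ := Subgroup.mem_sup.1 hz'
      have haw' : φ a * w = z ^ p := haw
      have h1 : z ^ p / φ a = w := by rw [← haw']; simp
      have h2 : φ a = w⁻¹ * z ^ p := by rw [← haw']; simp [mul_comm]
      refine ⟨a, ⟨ha, ?_⟩, by rw [h1]; exact hw⟩
      show φ a ∈ W ⊔ Jp
      rw [h2]
      exact (W ⊔ Jp).mul_mem (le_sup_left (b := Jp) (inv_mem hw)) (le_sup_right (a := W) ⟨z, hz, rfl⟩)
    · rintro a ⟨ha, ha'⟩ z ⟨hz, hz'⟩ h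
      constructor
      · intro haE
        obtain ⟨e, he, _, ⟨b, hb, rfl⟩, heb⟩ := Subgroup.mem_sup.1 haE
        have heb' : e * b ^ p = a := heb
        have h1 : (z / φ b) ^ p = (z ^ p / φ a) * φ e := by
          rw [← heb', map_mul, map_pow, div_pow, div_mul_eq_mul_div, mul_comm (z ^ p) (φ e),
            mul_div_mul_left_eq_div]
        have h2 : z / φ b ∈ W := by
          apply hsat _ (div_mem hz (hφJ b hb))
          rw [h1]
          exact mul_mem h he.2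
        have h3 : z = φ b * (z / φ b) := by simp
        rw [h3]
        exact H.mul_mem (le_sup_left (b := W) ⟨b, hb, rfl⟩) (le_sup_right (a := A.map φ) h2)
      · intro hzH
        obtain ⟨_, ⟨b, hb, rfl⟩, w, hw, hbw⟩ := Subgroup.mem_sup.1 hzH
        have h1 : φ (a / b ^ p) = (z ^ p / φ a)⁻¹ * w ^ p := by
          rw [← hbw, map_div, map_pow, mul_pow, inv_div, div_mul_eq_mul_div,
            mul_div_mul_right_eq_div]
        have h2 : a / b ^ p ∈ E := by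
          refine ⟨A.div_mem ha (A.pow_mem hb p), ?_⟩
          show φ (a / b ^ p) ∈ W
          rw [h1]
          exact mul_mem (inv_mem h) (pow_mem hw p)
        have h3 : a = (a / b ^ p) * b ^ p := by simp
        rw [h3]
        exact (E ⊔ Ap).mul_mem (le_sup_left (b := Ap) h2) (le_sup_right (a := E) ⟨b, hb, rfl⟩)
  rw [e1, e2, e3]

end Fermat.Agent.S55Lib
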