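import Fermat.Agent.S55.GU.AbsRel

/-! # S55 GU (AB2): the counting identity `D₁ · B = b · j · c` -/

set_option autoImplicit false
set_option linter.unusedVariables false

namespace Fermat.Agent.S55Lib

/-- `D₁ · B = b · j · c`.  With `N = Uu ⊔ Jp`, `M = P ⊔ N`:
`B = c · [Js ⊔ M : M] = c · [Js : Js ⊓ M]`, `j = [Js : Js ⊓ M] · [Js ⊓ M : Js^p]`,
`D₁ = b · [Δ₁ : V_S]` (all `Subgroup.relIndex_mul_relIndex`, `relIndex_sup_left/right`), and
`[Δ₁ : V_S] = [Js ⊓ M : Js^p]` by (AB1) with `R a y := φ a / y ∈ N`. -/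
theorem GU_count2 {G G' : Type} [CommGroup G] [CommGroup G'] (p : ℕ) (φ : G' →* G)
    (A : Subgroup G') (J Uu Js : Subgroup G) (hA : A.map φ ≤ J) (hU : Uu ≤ J) (hJs : Js ≤ J)
    (hJsp : ∀ y ∈ Js, y ∈ Uu ⊔ J.map (powMonoidHom p) → y ∈ Js.map (powMonoidHom p)) :
    (A.map (powMonoidHom p)).relIndex (A ⊓ (Uu ⊔ Js ⊔ J.map (powMonoidHom p)).comap φ) *
        (A.map φ ⊔ Uu ⊔ J.map (powMonoidHom p)).relIndex J =
      (A.map (powMonoidHom p)).relIndex (A ⊓ (Uu ⊔ J.map (powMonoidHom p)).comap φ) *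
        (Js.map (powMonoidHom p)).relIndex Js *
        (A.map φ ⊔ Uu ⊔ Js ⊔ J.map (powMonoidHom p)).relIndex J := by
  set Jp := J.map (powMonoidHom p) with hJp
  set N := Uu ⊔ Jp with hN
  set M := A.map φ ⊔ Uu ⊔ Jp with hM
  set Ap := A.map (powMonoidHom p) with hAp
  set D := A ⊓ (Uu ⊔ Js ⊔ Jp).comap φ with hD
  set VS := A ⊓ N.comap φ with hVS
  set Jsp := Js.map (powMonoidHom p) with hJsp'
  have hJpJ : Jp ≤ J := by
    rintro _ ⟨x, hx, rfl⟩
    exact pow_mem hx p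
  have hNM : N ≤ M := sup_le (le_sup_right.trans le_sup_left) le_sup_right
  have hPM : A.map φ ≤ M := le_sup_left.trans le_sup_left
  have hMJ : M ≤ J := sup_le (sup_le hA hU) hJpJ
  have hJspJp : Jsp ≤ Jp := Subgroup.map_mono hJs
  have hJspJs : Jsp ≤ Js := by
    rintro _ ⟨x, hx, rfl⟩
    exact pow_mem hx p
  have hMs : A.map φ ⊔ Uu ⊔ Js ⊔ Jp = Js ⊔ M := by
    rw [hM]
    apply le_antisymm
    · refine sup_le (sup_le (sup_le ?_ ?_) le_sup_left) ?_
      · exact (le_sup_left.trans le_sup_left).trans le_sup_right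
      · exact (le_sup_right.trans le_sup_left).trans le_sup_right
      · exact le_sup_right.trans le_sup_right
    · refine sup_le (le_sup_right.trans le_sup_left) (sup_le (sup_le ?_ ?_) le_sup_right)
      · exact (le_sup_left.trans le_sup_left).trans le_sup_left
      · exact (le_sup_right.trans le_sup_left).trans le_sup_left
  have hNs : Uu ⊔ Js ⊔ Jp = Js ⊔ N := by
    rw [hN]
    apply le_antisymm
    · exact sup_le (sup_le (le_sup_left.trans le_sup_right) le_sup_left)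
        (le_sup_right.trans le_sup_right)
    · exact sup_le (le_sup_right.trans le_sup_left)
        (sup_le (le_sup_left.trans le_sup_left) le_sup_right)
  -- `B = c [Js : Js ⊓ M]`
  have e1 : M.relIndex J = (M ⊓ Js).relIndex Js * (Js ⊔ M).relIndex J := by
    rw [← Subgroup.relIndex_mul_relIndex M (Js ⊔ M) J le_sup_right (sup_le hJs hMJ),
      Subgroup.relIndex_sup_right, Subgroup.inf_relIndex_right]
  -- `j`
  have e2 : Jsp.relIndex Js = Jsp.relIndex (M ⊓ Js) * (M ⊓ Js).relIndex Js :=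
    (Subgroup.relIndex_mul_relIndex Jsp (M ⊓ Js) Js
      (le_inf ((hJspJp.trans le_sup_right).trans hNM) hJspJs) inf_le_right).symm
  -- `D₁`
  have hApVS : Ap ≤ VS := by
    rintro _ ⟨a, ha, rfl⟩
    refine ⟨pow_mem ha p, ?_⟩
    show φ (a ^ p) ∈ N
    rw [map_pow]
    exact le_sup_right (a := Uu) ⟨φ a, hA ⟨a, ha, rfl⟩, rfl⟩
  have hVSD : VS ≤ D := by
    rintro a ⟨ha, ha'⟩
    refine ⟨ha, ?_⟩
    show φ a ∈ Uu ⊔ Js ⊔ Jp
    rw [hNs]
    exact le_sup_right (a := Js) ha'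
  have e3 : Ap.relIndex D = Ap.relIndex VS * VS.relIndex D :=
    (Subgroup.relIndex_mul_relIndex Ap VS D hApVS hVSD).symm
  have e4 : VS.relIndex D = Jsp.relIndex (M ⊓ Js) := by
    refine GU_relIndex_of_rel VS D Jsp (M ⊓ Js) (fun a y => φ a / y ∈ N) ?_ ?_ ?_ ?_
    · intro x x' y y' h h'
      have : φ (x * x') / (y * y') = (φ x / y) * (φ x' / y') := by
        rw [map_mul, mul_div_mul_comm]
      rw [this]
      exact mul_mem h h'
    · rintro a ⟨ha, ha'⟩
      have ha'' : φ a ∈ Js ⊔ N := by rw [← hNs]; exact ha'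
      obtain ⟨y, hy, n, hn, hyn⟩ := Subgroup.mem_sup.1 ha''
      have h1 : φ a / y = n := by rw [← hyn]; simp
      have h2 : y = φ a * n⁻¹ := by rw [← hyn]; simp
      refine ⟨y, ⟨?_, hy⟩, by rw [h1]; exact hn⟩
      rw [h2]
      exact M.mul_mem (hPM ⟨a, ha, rfl⟩) (M.inv_mem (hNM hn))
    · rintro y ⟨hyM, hyJs⟩
      have hyM' : y ∈ A.map φ ⊔ N := by
        rw [hN, ← sup_assoc]; exact hyM
      obtain ⟨_, ⟨a, ha, rfl⟩, n, hn, hyn⟩ := Subgroup.mem_sup.1 hyM'
      have h1 : φ a / y = n⁻¹ := by rw [← hyn]; simp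
      have h2 : φ a = y * n⁻¹ := by rw [← hyn]; simp
      refine ⟨a, ⟨ha, ?_⟩, by rw [h1]; exact inv_mem hn⟩
      show φ a ∈ Uu ⊔ Js ⊔ Jp
      rw [hNs, h2]
      exact mul_mem (le_sup_left (b := N) hyJs) (le_sup_right (a := Js) (inv_mem hn))
    · rintro a ⟨ha, ha'⟩ y ⟨hyM, hyJs⟩ h
      constructor
      · rintro ⟨-, haN⟩
        apply hJsp y hyJs
        have : y = φ a * (φ a / y)⁻¹ := by simp
        rw [this]
        exact mul_mem haN (inv_mem h)
      · intro hy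
        refine ⟨ha, ?_⟩
        show φ a ∈ N
        have : φ a = (φ a / y) * y := by simp
        rw [this]
        exact mul_mem h (le_sup_right (a := Uu) (hJspJp hy))
  rw [hMs, e1, e2, e3, e4]
  ring

end Fermat.Agent.S55Lib
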