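import Fermat.Agent.S55.G.Ideles

/-! # S55 GU (AB5): a pairing with values in `ℚ̄^×` -/

set_option autoImplicit false
set_option linter.unusedVariables false
set_option linter.style.haveILetI false

namespace Fermat.Agent.S55Lib

/-- `D/ker ↪ Hom(Q, ℚ̄^×)`, and `|Hom(Q, ℚ̄^×)| = |Q|`
(`CommGroup.card_monoidHom_of_hasEnoughRootsOfUnity`). -/
theorem GU_card_le_of_pairing {D Q : Type} [CommGroup D] [Group Q] [Finite Q]
    (hcomm : ∀ a b : Q, a * b = b * a) (χ : D →* (Q →* Qbarˣ)) :
    Nat.card (D ⧸ χ.ker) ≤ Nat.card Q := by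
  letI : CommGroup Q := { ‹Group Q› with mul_comm := hcomm }
  have hne : NeZero (Monoid.exponent Q) := ⟨(Monoid.exponent_ne_zero_of_finite)⟩
  have hne' : NeZero ((Monoid.exponent Q : ℕ) : ℚ) := ⟨by exact_mod_cast hne.out⟩
  have h1 : Nat.card (Q →* Qbarˣ) = Nat.card Q :=
    CommGroup.card_monoidHom_of_hasEnoughRootsOfUnity Q Qbar
  have hfin : Finite (Q →* Qbarˣ) := by
    apply Nat.finite_of_card_ne_zero
    rw [h1]
    exact Nat.card_pos.ne'
  rw [← h1, Nat.card_congr (QuotientGroup.quotientKerEquivRange χ).toEquiv]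
  exact Nat.card_le_card_of_injective _ Subtype.val_injective

end Fermat.Agent.S55Lib
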