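import Fermat.Agent.S55.GU.AbsRel

/-! # S55 GU (AB7): index of the image up to prime-to-`p` torsion -/

set_option autoImplicit false
set_option linter.unusedVariables false

namespace Fermat.Agent.S55Lib

/-- (AB1') with `R x c := ι x - c ∈ p A`; Bezout `a m + b p = 1`. -/
theorem GU_relIndex_image {X : Type} [CommGroup X] {C : Type} [AddCommGroup C] (p : ℕ)
    [Fact p.Prime] (J Y : Subgroup X) (hYJ : Y ≤ J) (A : AddSubgroup C) (ι : X → C)
    (hmul : ∀ x ∈ J, ∀ y ∈ J, ι (x * y) = ι x + ι y) (hιA : ∀ x ∈ J, ι x ∈ A)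
    (hker : ∀ x ∈ J, ι x = 0 → x ∈ Y) (hpY : ∀ x ∈ J, x ^ p ∈ Y)
    (hsurj : ∀ c ∈ A, ∃ m : ℕ, m.Coprime p ∧ ∃ x ∈ J, ι x = m • c)
    (M : AddSubgroup C) (hM : ∀ c, c ∈ M ↔ ∃ y ∈ Y, ∃ a ∈ A, c = ι y + p • a) :
    M.relIndex A = Y.relIndex J := by
  have hp : p.Prime := Fact.out
  let φ : J →* Multiplicative C := MonoidHom.mk' (fun x => Multiplicative.ofAdd (ι (x : X)))
    (fun x y => by
      show Multiplicative.ofAdd (ι ((x : X) * (y : X))) = _
      rw [hmul _ x.2 _ y.2]; rfl)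
  have hpow : ∀ x ∈ J, ∀ n : ℕ, ι (x ^ n) = n • ι x := fun x hx n => map_pow φ ⟨x, hx⟩ n
  have hinv : ∀ x ∈ J, ι x⁻¹ = - ι x := fun x hx => map_inv φ ⟨x, hx⟩
  symm
  refine GU_relIndex_of_rel' Y J M A (fun x c => x ∈ J ∧ c ∈ A ∧ ∃ a ∈ A, ι x - c = p • a)
    ?_ ?_ ?_ ?_
  · rintro x x' y y' ⟨hx, hy, a, ha, h⟩ ⟨hx', hy', a', ha', h'⟩
    refine ⟨mul_mem hx hx', add_mem hy hy', a + a', add_mem ha ha', ?_⟩
    rw [hmul x hx x' hx', nsmul_add, ← h, ← h']
    abel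
  · intro x hx
    exact ⟨ι x, hιA x hx, hx, hιA x hx, 0, zero_mem _, by simp⟩
  · intro c hc
    obtain ⟨m, hm, x, hx, hxc⟩ := hsurj c hc
    obtain ⟨n, -, hn⟩ := Nat.exists_mul_mod_eq_one_of_coprime hm hp.one_lt
    refine ⟨x ^ n, pow_mem hx n, pow_mem hx n, hc, (m * n / p) • c, A.nsmul_mem hc _, ?_⟩
    rw [hpow x hx, hxc, smul_smul, smul_smul]
    have h1 : n * m = p * (m * n / p) + 1 := by
      have := Nat.div_add_mod (m * n) p
      rw [hn] at this
      rw [mul_comm n m]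
      exact this.symm
    rw [h1, add_nsmul, one_nsmul]
    abel
  · rintro x hx c hc ⟨-, -, a, ha, h⟩
    constructor
    · intro hxY
      rw [hM]
      refine ⟨x, hxY, -a, neg_mem ha, ?_⟩
      rw [smul_neg, ← h]
      abel
    · intro hcM
      rw [hM] at hcM
      obtain ⟨y, hy, a', ha', hc'⟩ := hcM
      obtain ⟨m, hm, z, hz, hzb⟩ := hsurj (a + a') (add_mem ha ha')
      have hyJ := hYJ hy
      have h1 : ι x = ι y + p • (a + a') := by
        rw [nsmul_add, ← h, hc']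
        abel
      have h2 : ι (x ^ m * (y ^ m * z ^ p)⁻¹) = 0 := by
        rw [hmul _ (pow_mem hx m) _ (inv_mem (mul_mem (pow_mem hyJ m) (pow_mem hz p))),
          hinv _ (mul_mem (pow_mem hyJ m) (pow_mem hz p)),
          hmul _ (pow_mem hyJ m) _ (pow_mem hz p), hpow x hx, hpow y hyJ, hpow z hz, hzb, h1,
          nsmul_add, smul_smul, smul_smul, mul_comm m p]
        abel
      have h3 := hker _ (mul_mem (pow_mem hx m)
        (inv_mem (mul_mem (pow_mem hyJ m) (pow_mem hz p)))) h2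
      have h4 : x ^ m ∈ Y := by
        have := mul_mem h3 (mul_mem (pow_mem hy m) (hpY z hz))
        rwa [inv_mul_cancel_right] at this
      have h5 : x ^ (1 : ℤ) ∈ Y := by
        have hb : IsCoprime (m : ℤ) (p : ℤ) := Nat.isCoprime_iff_coprime.2 hm
        obtain ⟨u, v, huv⟩ := hb
        rw [← huv, zpow_add, mul_comm u, mul_comm v, zpow_mul, zpow_mul, zpow_natCast, zpow_natCast]
        exact mul_mem (zpow_mem h4 u) (zpow_mem (hpY x hx) v)
      simpa using h5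

end Fermat.Agent.S55Lib
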