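import Mathlib

/-! # S55 GU (AB0): `|E / E^p|` as a relative index -/

set_option autoImplicit false

namespace Fermat.Agent.S55Lib

theorem GU_card_quot_pow {G : Type} [CommGroup G] (p : ℕ) (E : Subgroup G) :
    Nat.card (E ⧸ (powMonoidHom p : E →* E).range) = (E.map (powMonoidHom p)).relIndex E := by
  have h : (E.map (powMonoidHom p)).subgroupOf E = (powMonoidHom p : E →* E).range := by
    ext x
    rw [Subgroup.mem_subgroupOf]
    constructor
    · rintro ⟨y, hy, hyx⟩
      exact ⟨⟨y, hy⟩, Subtype.ext hyx⟩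
    · rintro ⟨y, rfl⟩
      exact ⟨y, y.2, rfl⟩
  rw [Subgroup.relIndex, h]
  rfl

end Fermat.Agent.S55Lib
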