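import Fermat.Agent.S55.F.Basic

/-! # S55 GU (AB1): relative indices matched by a multiplicative correspondence -/

set_option autoImplicit false

namespace Fermat.Agent.S55Lib

/-- the same with an additive group on the right -/
theorem GU_relIndex_of_rel' {G : Type} [CommGroup G] {C : Type} [AddCommGroup C]
    (X' X : Subgroup G) (Y' Y : AddSubgroup C) (R : G → C → Prop)
    (hmul : ∀ x x' y y', R x y → R x' y' → R (x * x') (y + y'))
    (htot : ∀ x ∈ X, ∃ y ∈ Y, R x y) (hsurj : ∀ y ∈ Y, ∃ x ∈ X, R x y)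
    (hiff : ∀ x ∈ X, ∀ y ∈ Y, R x y → (x ∈ X' ↔ y ∈ Y')) : X'.relIndex X = Y'.relIndex Y := by
  obtain ⟨e⟩ := nonempty_addEquiv_of_rel (X := Additive X) (Y := Y)
    (Subgroup.toAddSubgroup (X'.subgroupOf X)) (Y'.addSubgroupOf Y)
    (fun x y => R ((Additive.toMul x : X) : G) (y : C))
    (fun x x' y y' h h' => hmul _ _ _ _ h h')
    (fun x => by
      obtain ⟨y, hy, h⟩ := htot _ (Additive.toMul x : X).2
      exact ⟨⟨y, hy⟩, h⟩)
    (fun x y h => hiff _ (Additive.toMul x : X).2 _ y.2 h)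
    (fun y => by
      obtain ⟨x, hx, h⟩ := hsurj _ y.2
      exact ⟨Additive.ofMul ⟨x, hx⟩, h⟩)
  have h1 : X'.relIndex X = (Subgroup.toAddSubgroup (X'.subgroupOf X)).index := rfl
  rw [h1]
  exact Nat.card_congr e.toEquiv

/-- a multiplicative correspondence between `X` and `Y` matching `X'` with `Y'`
(from `nonempty_addEquiv_of_rel` of `F/Basic.lean` applied to `Additive ↥X`, `Additive ↥Y`). -/
theorem GU_relIndex_of_rel {G G' : Type} [CommGroup G] [CommGroup G'] (X' X : Subgroup G)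
    (Y' Y : Subgroup G') (R : G → G' → Prop)
    (hmul : ∀ x x' y y', R x y → R x' y' → R (x * x') (y * y'))
    (htot : ∀ x ∈ X, ∃ y ∈ Y, R x y) (hsurj : ∀ y ∈ Y, ∃ x ∈ X, R x y)
    (hiff : ∀ x ∈ X, ∀ y ∈ Y, R x y → (x ∈ X' ↔ y ∈ Y')) : X'.relIndex X = Y'.relIndex Y :=
  GU_relIndex_of_rel' (C := Additive G') X' X (Subgroup.toAddSubgroup Y') (Subgroup.toAddSubgroup Y)
    (fun x y => R x (Additive.toMul y)) (fun x x' y y' h h' => hmul _ _ _ _ h h')
    (fun x hx => by
      obtain ⟨y, hy, h⟩ := htot x hx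
      exact ⟨Additive.ofMul y, hy, h⟩)
    (fun y hy => hsurj _ hy) (fun x hx y hy h => hiff x hx _ hy h)

end Fermat.Agent.S55Lib
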