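import Fermat.Agent.S55.GU.AbsRel
import Fermat.Agent.S55.H.QIndex

/-! # S55 GU (AB4): `|Cl[p]| = |Cl/p|` for a group of bounded exponent with `Cl/p` finite -/

set_option autoImplicit false
set_option linter.unusedVariables false

namespace Fermat.Agent.S55Lib

lemma AB4_index_pow {A : Type} [AddCommGroup A] (p : ℕ) (hfin : (mulp p A).range.index ≠ 0)
    (k : ℕ) : (mulp (p ^ k) A).range.index ≠ 0 := by
  induction k with
  | zero =>
    have : (mulp (p ^ 0) A).range = ⊤ := by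
      rw [AddMonoidHom.range_eq_top]
      intro a
      exact ⟨a, by simp [mulp]⟩
    rw [this, AddSubgroup.index_top]
    exact one_ne_zero
  | succ k ih =>
    obtain ⟨a, b, t, h1, h2, -, -⟩ := Chev_comp_core (mulp p A) (mulp (p ^ k) A)
    have h3 : (mulp p A).comp (mulp (p ^ k) A) = mulp (p ^ (k + 1)) A := by
      ext x
      simp only [mulp, AddMonoidHom.comp_apply, AddMonoidHom.smul_apply, AddMonoidHom.id_apply,
        smul_smul]
      rw [pow_succ, mul_comm]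
    rw [← h3, h1]
    refine mul_ne_zero hfin ?_
    intro ha
    exact ih (by rw [h2, ha, zero_mul])

theorem AB4_add {A : Type} [AddCommGroup A] (p : ℕ) [Fact p.Prime] (h : ℕ) (hh : 0 < h)
    (hexp : ∀ x : A, h • x = 0) (hfin : (mulp p A).range.index ≠ 0) :
    Nat.card (mulp p A).ker = (mulp p A).range.index := by
  have hp : p.Prime := Fact.out
  obtain ⟨k, m, hm, hkm⟩ := Nat.exists_eq_pow_mul_and_not_dvd hh.ne' p hp.ne_one
  set g := mulp (p ^ k) A with hg
  have hgfin : g.range.index ≠ 0 := AB4_index_pow p hfin k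
  have hfinQ : Finite (A ⧸ g.range) := AddSubgroup.index_ne_zero_iff_finite.1 hgfin
  have hkill : ∀ a : g.range, m • a = 0 := by
    rintro ⟨_, y, rfl⟩
    apply Subtype.ext
    show m • (p ^ k • y) = 0
    rw [smul_smul, mul_comm, ← hkm, hexp]
  have hcop : IsCoprime (p : ℤ) (m : ℤ) :=
    Nat.isCoprime_iff_coprime.2 ((Nat.Prime.coprime_iff_not_dvd hp).2 hm)
  obtain ⟨u, v, huv⟩ := hcop
  have hid : ∀ a : g.range, a = p • (u • a) := by
    intro a
    have h1 : (u * (p : ℤ) + v * (m : ℤ)) • a = a := by rw [huv, one_zsmul]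
    rw [add_zsmul, mul_zsmul, mul_zsmul, natCast_zsmul, natCast_zsmul, hkill, zsmul_zero,
      add_zero] at h1
    rw [smul_comm]
    exact h1.symm
  have hbij : Function.Bijective (mulp p g.range) := by
    constructor
    · rw [injective_iff_map_eq_zero]
      intro a ha
      have ha' : p • a = 0 := ha
      rw [hid a, smul_comm, ha', zsmul_zero]
    · intro a
      exact ⟨u • a, (hid a).symm⟩
  obtain ⟨hq1, hq1'⟩ := qInd_of_bijective _ hbij
  obtain ⟨hq2, hq2'⟩ := qInd_of_finite (mulp p (A ⧸ g.range))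
  obtain ⟨hq, hq'⟩ := qInd_ses g.range.subtype (QuotientAddGroup.mk' g.range)
    Subtype.val_injective (QuotientAddGroup.mk'_surjective _)
    (fun a => by
      rw [QuotientAddGroup.mk'_apply, QuotientAddGroup.eq_zero_iff]
      exact ⟨fun ha => ⟨⟨a, ha⟩, rfl⟩, fun ⟨a', ha'⟩ => ha' ▸ a'.2⟩)
    (mulp p g.range) (mulp p A) (mulp p (A ⧸ g.range)) (fun a => rfl) (fun a => rfl) hq1 hq2
  rw [hq1', hq2', mul_one, Chev_qInd_eq] at hq'
  obtain ⟨-, h2⟩ := Chev_qFin_iff.1 hq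
  have h3 : ((Nat.card (mulp p A).ker : ℕ) : ℚ) ≠ 0 := by exact_mod_cast h2
  rw [div_eq_one_iff_eq h3] at hq'
  exact_mod_cast hq'.symm

/-- `|Cl[p]| = |Cl/p|` for a group `Cl = J/H` of bounded exponent with `Cl/p` finite.
`h = p^k m`; `Cl/p^k` is finite (filtration, each quotient is an image of `Cl/p`); `p` is bijective
on `p^k Cl` (killed by `m`); so kernel and cokernel of `p` on `Cl` are those on the finite group
`Cl/p^k Cl`, where they have the same order. -/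
theorem GU_tor {G : Type} [CommGroup G] (p : ℕ) [Fact p.Prime] (J H : Subgroup G) (hHJ : H ≤ J)
    (h : ℕ) (hh : 0 < h) (hexp : ∀ z ∈ J, z ^ h ∈ H)
    (hfin : (H ⊔ J.map (powMonoidHom p)).relIndex J ≠ 0) :
    H.relIndex (J ⊓ H.comap (powMonoidHom p)) = (H ⊔ J.map (powMonoidHom p)).relIndex J := by
  set Cl := Additive (J ⧸ H.subgroupOf J) with hCl
  let cl : J → Cl := fun x => Additive.ofMul (QuotientGroup.mk x)
  have hcl0 : ∀ x : J, cl x = 0 ↔ (x : G) ∈ H := by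
    intro x
    show (QuotientGroup.mk x : J ⧸ H.subgroupOf J) = 1 ↔ _
    rw [QuotientGroup.eq_one_iff, Subgroup.mem_subgroupOf]
  have hclmul : ∀ x y : J, cl (x * y) = cl x + cl y := fun x y => rfl
  have hclpow : ∀ (x : J) (n : ℕ), cl (x ^ n) = n • cl x := fun x n => rfl
  have hclinv : ∀ x : J, cl x⁻¹ = - cl x := fun x => rfl
  have hclsurj : ∀ c : Cl, ∃ x : J, cl x = c := fun c => QuotientGroup.mk_surjective c.toMul
  have e1 : (H ⊔ J.map (powMonoidHom p)).relIndex J = (mulp p Cl).range.index := by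
    rw [← AddSubgroup.relIndex_top_right]
    refine GU_relIndex_of_rel' _ J _ ⊤ (fun x c => ∃ hx : x ∈ J, c = cl ⟨x, hx⟩) ?_ ?_ ?_ ?_
    · rintro x x' _ _ ⟨hx, rfl⟩ ⟨hx', rfl⟩
      exact ⟨mul_mem hx hx', rfl⟩
    · intro x hx
      exact ⟨_, trivial, hx, rfl⟩
    · intro c _
      obtain ⟨x, rfl⟩ := hclsurj c
      exact ⟨x, x.2, x.2, rfl⟩
    · rintro x hx _ - ⟨-, rfl⟩
      constructor
      · intro hxm
        obtain ⟨a, ha, _, ⟨z, hz, rfl⟩, haz⟩ := Subgroup.mem_sup.1 hxm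
        refine ⟨cl ⟨z, hz⟩, ?_⟩
        show p • cl ⟨z, hz⟩ = _
        rw [← hclpow]
        have h1 : (⟨x, hx⟩ : J) = ⟨a, hHJ ha⟩ * ⟨z, hz⟩ ^ p := Subtype.ext haz.symm
        rw [h1, hclmul, (hcl0 ⟨a, hHJ ha⟩).2 ha, zero_add]
      · rintro ⟨c, hc⟩
        obtain ⟨z, rfl⟩ := hclsurj c
        have hc' : p • cl z = cl ⟨x, hx⟩ := hc
        have h1 : cl (⟨x, hx⟩ * (z ^ p)⁻¹) = 0 := by
          rw [hclmul, hclinv, hclpow, hc', add_neg_cancel]
        have h2 := (hcl0 _).1 h1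
        have h3 : x = (x * ((z : G) ^ p)⁻¹) * (z : G) ^ p := by simp
        rw [h3]
        exact (H ⊔ J.map (powMonoidHom p)).mul_mem (le_sup_left (b := J.map (powMonoidHom p)) h2)
          (le_sup_right (a := H) ⟨z, z.2, rfl⟩)
  have e2 : H.relIndex (J ⊓ H.comap (powMonoidHom p)) = Nat.card (mulp p Cl).ker := by
    rw [← AddSubgroup.relIndex_bot_left]
    refine GU_relIndex_of_rel' _ _ _ _ (fun x c => ∃ hx : x ∈ J, c = cl ⟨x, hx⟩) ?_ ?_ ?_ ?_
    · rintro x x' _ _ ⟨hx, rfl⟩ ⟨hx', rfl⟩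
      exact ⟨mul_mem hx hx', rfl⟩
    · rintro x ⟨hx, hx'⟩
      refine ⟨_, ?_, hx, rfl⟩
      show p • cl ⟨x, hx⟩ = 0
      rw [← hclpow, hcl0]
      exact hx'
    · intro c hc
      obtain ⟨x, rfl⟩ := hclsurj c
      have hc' : p • cl x = 0 := hc
      rw [← hclpow, hcl0] at hc'
      exact ⟨x, ⟨x.2, hc'⟩, x.2, rfl⟩
    · rintro x ⟨hx, -⟩ _ - ⟨-, rfl⟩
      rw [AddSubgroup.mem_bot, hcl0]
  rw [e1, e2]
  refine AB4_add p h hh ?_ (by rw [← e1]; exact hfin)
  intro c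
  obtain ⟨x, rfl⟩ := hclsurj c
  rw [← hclpow, hcl0]
  exact hexp _ x.2

end Fermat.Agent.S55Lib
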