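import Fermat.Agent.S55.G3.Nrm

/-!
# S55, `G_levelU`, leaf (AB8): a transversal computing the norm
-/

set_option autoImplicit false
set_option linter.unusedSectionVars false
set_option linter.unusedVariables false
set_option linter.style.haveILetI false

namespace Fermat.Agent.S55Lib

noncomputable section

/-- a transversal computing the norm -/
theorem GU_exists_transversal {G : Type} [Group G] (U V : Subgroup G) (hle : U ≤ V)
    (hfin : U.relIndex V ≠ 0) :
    ∃ R : Finset G, (∀ s ∈ V, ∃! t, t ∈ R ∧ t⁻¹ * s ∈ U) ∧ (∀ t ∈ R, t ∈ V) ∧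
      ∀ (A : Type) [AddCommGroup A] [DistribMulAction G A], ∀ c ∈ inv U A,
        ∑ t ∈ R, t • c = nrm U V c := by
  classical
  haveI := NR_finite hfin
  haveI : Fintype (V ⧸ U.subgroupOf V) := Fintype.ofFinite _
  let r : V ⧸ U.subgroupOf V → G := fun x => ((Quotient.out x : V) : G)
  have hr : Function.Injective r := by
    intro x y hxy
    have h1 : (Quotient.out x : V) = Quotient.out y := Subtype.ext hxy
    rw [← Quotient.out_eq' x, ← Quotient.out_eq' y]
    exact congrArg _ h1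
  have hmk : ∀ (x : V ⧸ U.subgroupOf V) (s : V), (r x)⁻¹ * (s : G) ∈ U ↔ x = QuotientGroup.mk s := by
    intro x s
    have h1 : (r x)⁻¹ * (s : G) ∈ U ↔ (Quotient.out x : V)⁻¹ * s ∈ U.subgroupOf V := by
      rw [Subgroup.mem_subgroupOf]; rfl
    rw [h1, ← QuotientGroup.eq, QuotientGroup.out_eq']
  refine ⟨Finset.univ.image r, fun s hs => ?_, fun t ht => ?_, fun A _ _ c hc => ?_⟩
  · refine ⟨r (QuotientGroup.mk ⟨s, hs⟩), ⟨Finset.mem_image_of_mem _ (Finset.mem_univ _),
      (hmk _ ⟨s, hs⟩).2 rfl⟩, ?_⟩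
    rintro t ⟨ht, hts⟩
    obtain ⟨x, -, rfl⟩ := Finset.mem_image.1 ht
    rw [(hmk x ⟨s, hs⟩).1 hts]
  · obtain ⟨x, -, rfl⟩ := Finset.mem_image.1 ht
    exact (Quotient.out x : V).2
  · rw [Finset.sum_image (fun x _ y _ h => hr h)]
    unfold nrm
    rw [finsum_eq_sum_of_fintype]

end

end Fermat.Agent.S55Lib
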