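import Fermat.Agent.S55.GU.Base
import Fermat.Agent.S55.G.ClassNumber

/-! # S55 GU (AR2): the groups `Δ₁` and `V_S` -/

set_option autoImplicit false
set_option linter.unusedSectionVars false
set_option linter.unusedVariables false
set_option linter.style.haveILetI false

namespace Fermat.Agent.S55Lib

noncomputable section

open groupCohomology

variable {p : ℕ} [Fact p.Prime] (S : Finset Nat.Primes) (F : IntermediateField ℚ Qbar)

lemma AR2_diag_mem {a : Qbarˣ} (ha : a ∈ FX F) : diag a ∈ JF F := by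
  intro s hs
  rw [smul_diag]
  congr 1
  apply Units.ext
  rw [IntermediateField.mem_fixingSubgroup_iff] at hs
  exact hs _ ha

theorem Fpg_le_VSg : Fpg p F ≤ VSg p S F := by
  rintro _ ⟨a, ha, rfl⟩
  refine ⟨(FX F).pow_mem ha p, ?_⟩
  show diag (a ^ p) ∈ USF S F ⊔ JpF p F
  rw [map_pow]
  exact le_sup_right (a := USF S F) ⟨diag a, AR2_diag_mem F ha, rfl⟩

theorem VSg_le_D1g : VSg p S F ≤ D1g p S F := by
  rintro a ⟨ha, ha'⟩
  refine ⟨ha, ?_⟩
  have h : USF S F ⊔ JpF p F ≤ USF S F ⊔ JSF S F ⊔ JpF p F :=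
    sup_le (le_sup_left.trans le_sup_left) le_sup_right
  exact h ha'

theorem D1g_norm (x : Qbarˣ) (hx : x ∈ D1g p S F) : x ∈ FX F ∧ ∃ z ∈ JF F, ∀ q ∉ S, ∀ g : GQ,
    ‖iq q (g (x : Qbar))‖ = ‖((cmp z q g : (Om q)ˣ) : Om q)‖ ^ p := by
  refine ⟨hx.1, ?_⟩
  obtain ⟨w, hw, _, ⟨z, hz, rfl⟩, h⟩ := Subgroup.mem_sup.1 hx.2
  obtain ⟨u, hu, y, hy, rfl⟩ := Subgroup.mem_sup.1 hw
  refine ⟨z, hz, fun q hq g => ?_⟩
  have h' : u * y * z ^ p = diag x := h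
  rw [← diag_comp, ← h', cmp_mul, cmp_mul, cmp_pow, hy.2 q hq g, mul_one, Units.val_mul, norm_mul,
    hu.2.2 q hq g, one_mul, Units.val_pow_eq_pow_val, norm_pow]

theorem VSg_local (x : Qbarˣ) (hx : x ∈ VSg p S F) : ∃ z ∈ JF F, ∀ q ∈ S, ∀ g : GQ,
    iq q (g (x : Qbar)) = ((cmp z q g : (Om q)ˣ) : Om q) ^ p := by
  obtain ⟨u, hu, _, ⟨z, hz, rfl⟩, h⟩ := Subgroup.mem_sup.1 hx.2
  refine ⟨z, hz, fun q hq g => ?_⟩
  have h' : u * z ^ p = diag x := h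
  rw [← diag_comp, ← h', cmp_mul, cmp_pow, hu.2.1 q hq g, one_mul, Units.val_pow_eq_pow_val]

lemma AR2_smul_JF (hst : StableF F) (g : GQ) {x : JJ} (hx : x ∈ JF F) : g • x ∈ JF F := by
  intro s hs
  have h1 : g⁻¹ * s * g ∈ F.fixingSubgroup := by
    have := (normal_fix F hst).conj_mem s hs g⁻¹
    simpa using this
  have h2 := hx _ h1
  calc s • g • x = g • (g⁻¹ * s * g) • x := by simp only [smul_smul]; group
    _ = g • x := by rw [h2]

lemma AR2_smul_USF (hst : StableF F) (g : GQ) {x : JJ} (hx : x ∈ USF S F) : g • x ∈ USF S F :=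
  ⟨AR2_smul_JF F hst g hx.1, smul_mem_UId S g hx.2⟩

lemma AR2_smul_JSF (hst : StableF F) (g : GQ) {x : JJ} (hx : x ∈ JSF S F) : g • x ∈ JSF S F :=
  ⟨AR2_smul_JF F hst g hx.1, fun q hq g' => hx.2 q hq (g' * g)⟩

lemma AR2_smul_JpF (hst : StableF F) (g : GQ) {x : JJ} (hx : x ∈ JpF p F) : g • x ∈ JpF p F := by
  obtain ⟨z, hz, rfl⟩ := hx
  exact ⟨g • z, AR2_smul_JF F hst g hz, (smul_pow' g z p).symm⟩

lemma AR2_smul_FX (hst : StableF F) (g : GQ) {x : Qbarˣ} (hx : x ∈ FX F) : g • x ∈ FX F :=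
  hst g _ hx

theorem D1g_stable (hst : StableF F) (g : GQ) (x : Qbarˣ) (hx : x ∈ D1g p S F) :
    g • x ∈ D1g p S F := by
  refine ⟨AR2_smul_FX F hst g hx.1, ?_⟩
  obtain ⟨w, hw, z, hz, h⟩ := Subgroup.mem_sup.1 hx.2
  obtain ⟨u, hu, y, hy, rfl⟩ := Subgroup.mem_sup.1 hw
  show diag (g • x) ∈ USF S F ⊔ JSF S F ⊔ JpF p F
  have h' : u * y * z = diag x := h
  rw [← smul_diag, ← h', smul_mul', smul_mul']
  exact Subgroup.mul_mem _ (le_sup_left (b := JpF p F) (Subgroup.mul_mem _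
    (le_sup_left (b := JSF S F) (AR2_smul_USF S F hst g hu))
    (le_sup_right (a := USF S F) (AR2_smul_JSF S F hst g hy))))
    (le_sup_right (a := USF S F ⊔ JSF S F) (AR2_smul_JpF F hst g hz))

theorem VSg_stable (hst : StableF F) (g : GQ) (x : Qbarˣ) (hx : x ∈ VSg p S F) :
    g • x ∈ VSg p S F := by
  refine ⟨AR2_smul_FX F hst g hx.1, ?_⟩
  obtain ⟨u, hu, z, hz, h⟩ := Subgroup.mem_sup.1 hx.2
  show diag (g • x) ∈ USF S F ⊔ JpF p F
  have h' : u * z = diag x := h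
  rw [← smul_diag, ← h', smul_mul']
  exact Subgroup.mul_mem _ (le_sup_left (b := JpF p F) (AR2_smul_USF S F hst g hu))
    (le_sup_right (a := USF S F) (AR2_smul_JpF F hst g hz))

end

end Fermat.Agent.S55Lib
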