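import Fermat.Agent.S55.GU.Base
import Fermat.Agent.S55.GU.AbsPow
import Fermat.Agent.S55.G1b.Defs

/-!
# S55, `G_levelU`, leaf (AR3): finiteness and exponent of the `S`-class group
-/

set_option autoImplicit false
set_option linter.unusedSectionVars false
set_option linter.unusedVariables false
set_option linter.style.haveILetI false

namespace Fermat.Agent.S55Lib

noncomputable section

variable {p : ℕ} [Fact p.Prime] (S : Finset Nat.Primes) (F : IntermediateField ℚ Qbar)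

lemma AR3_mem_sup {x : JJ} (hx : x ∈ JF F)
    (h : ∀ q ∉ S, ∀ g, ‖((cmp x q g : (Om q)ˣ) : Om q)‖ = 1) : x ∈ USF S F ⊔ JSF S F := by
  have hc : cutT S x ∈ JF F := fun s hs => by rw [smul_cutT, hx s hs]
  have h1 : x = x * (cutT S x)⁻¹ * cutT S x := by rw [inv_mul_cancel_right]
  rw [h1]
  have h2 : x * (cutT S x)⁻¹ ∈ JF F := mul_mem hx (inv_mem hc)
  have h3 : x * (cutT S x)⁻¹ ∈ UId S := by
    refine ⟨?_, ?_⟩
    · intro q hq g
      rw [cmp_mul, cmp_inv, cmp_cutT_of_mem x hq, mul_inv_cancel]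
    · intro q hq g
      rw [cmp_mul, cmp_inv, cmp_cutT_of_not_mem x hq, inv_one, mul_one]
      exact h q hq g
  exact Subgroup.mul_mem_sup (show _ ∈ USF S F from ⟨h2, h3⟩)
    (show _ ∈ JSF S F from ⟨hc, fun q hq g => cmp_cutT_of_not_mem x hq g⟩)

/-- from `J = P J_T U^T` and `[J_T : J_T^p] < ∞` -/
theorem GU_c_ne_zero
    (T : Finset Nat.Primes) (hST : S ⊆ T)
    (hT : ∀ x ∈ JF F, ∃ a ∈ FX F, ∃ y ∈ JF F ⊓ JT T, ∃ u ∈ JF F ⊓ UId T, x = diag a * y * u)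
    (hJT : Nat.card (↥(JF F ⊓ JT T) ⧸
      (powMonoidHom p : ↥(JF F ⊓ JT T) →* ↥(JF F ⊓ JT T)).range) ≠ 0) :
    (PFg F ⊔ USF S F ⊔ JSF S F ⊔ JpF p F).relIndex (JF F) ≠ 0 := by
  rw [GU_card_quot_pow] at hJT
  set Y := PFg F ⊔ USF S F ⊔ JSF S F ⊔ JpF p F with hY
  have h1 : (JF F ⊓ JT T).map (powMonoidHom p) ≤ Y := by
    refine le_trans ?_ (le_sup_right : JpF p F ≤ Y)
    exact Subgroup.map_mono inf_le_left
  have h2 : Y.relIndex (JF F ⊓ JT T) ≠ 0 := fun h0 =>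
    hJT (Subgroup.relIndex_eq_zero_of_le_left h1 h0)
  have h3 : JF F ≤ (JF F ⊓ JT T) ⊔ Y := by
    intro x hx
    obtain ⟨a, ha, y, hy, u, hu, rfl⟩ := hT x hx
    have hu' : u ∈ USF S F := by
      refine ⟨hu.1, fun q hq g => hu.2.1 q (hST hq) g, fun q hq g => ?_⟩
      by_cases hqT : q ∈ T
      · rw [hu.2.1 q hqT g, Units.val_one, norm_one]
      · exact hu.2.2 q hqT g
    have e : diag a * y * u = y * (diag a * u) := by
      rw [mul_comm (diag a) y, mul_assoc]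
    rw [e]
    refine Subgroup.mul_mem_sup hy ?_
    have h4 : PFg F ⊔ USF S F ≤ Y := le_sup_left.trans le_sup_left
    exact h4 (Subgroup.mul_mem_sup ⟨a, ha, rfl⟩ hu')
  intro h0
  have h5 := Subgroup.relIndex_eq_zero_of_le_right h3 h0
  rw [Subgroup.relIndex_sup_right] at h5
  exact h2 h5

theorem GU_exponent (h : ℕ)
    (hh : ∀ x ∈ JF F, ∃ a ∈ FX F, ∃ u ∈ JF F ⊓ UId ∅, x ^ h = diag a * u) (z : JJ)
    (hz : z ∈ JF F) : z ^ h ∈ PFg F ⊔ USF S F ⊔ JSF S F := by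
  obtain ⟨a, ha, u, hu, e⟩ := hh z hz
  rw [e, sup_assoc]
  exact Subgroup.mul_mem_sup ⟨a, ha, rfl⟩
    (AR3_mem_sup S F hu.1 (fun q _ g => hu.2.2 q (Finset.notMem_empty q) g))

end

end Fermat.Agent.S55Lib
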