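import Fermat.Agent.S55.GU.ArDelta
import Fermat.Agent.S55.G1b.Defs
import Fermat.Agent.S55.G.Cut

/-! # S55 GU (AR1): ideles of `F` which are units outside `S` -/

set_option autoImplicit false
set_option linter.unusedSectionVars false
set_option linter.unusedVariables false
set_option linter.style.haveILetI false

namespace Fermat.Agent.S55Lib

noncomputable section

open groupCohomology

variable {p : ℕ} [Fact p.Prime] (S : Finset Nat.Primes) (F : IntermediateField ℚ Qbar)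

lemma AR1_cut_mem {x : JJ} (hx : x ∈ JF F) : cutT S x ∈ JSF S F :=
  ⟨cut_mem_JF hx (fun q hq g => cmp_cutT_of_mem x hq g) (fun q hq g => cmp_cutT_of_not_mem x hq g),
    fun q hq g => cmp_cutT_of_not_mem x hq g⟩

theorem mem_USF_sup_JSF_iff (x : JJ) : x ∈ USF S F ⊔ JSF S F ↔
    x ∈ JF F ∧ ∀ q ∉ S, ∀ g, ‖((cmp x q g : (Om q)ˣ) : Om q)‖ = 1 := by
  constructor
  · intro hx
    obtain ⟨u, hu, y, hy, rfl⟩ := Subgroup.mem_sup.1 hx
    refine ⟨(JF F).mul_mem hu.1 hy.1, fun q hq g => ?_⟩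
    rw [cmp_mul, hy.2 q hq g, mul_one]
    exact hu.2.2 q hq g
  · rintro ⟨hx, hn⟩
    have hy := AR1_cut_mem S F hx
    have h1 : x = (x * (cutT S x)⁻¹) * cutT S x := by group
    rw [h1]
    refine Subgroup.mul_mem _ (le_sup_left (b := JSF S F) ⟨?_, ?_, ?_⟩)
      (le_sup_right (a := USF S F) hy)
    · exact (JF F).mul_mem hx ((JF F).inv_mem hy.1)
    · intro q hq g
      rw [cmp_mul, cmp_inv, cmp_cutT_of_mem x hq g, mul_inv_cancel]
    · intro q hq g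
      rw [cmp_mul, cmp_inv, cmp_cutT_of_not_mem x hq g, inv_one, mul_one]
      exact hn q hq g

theorem GU_hsat (z : JJ) (hz : z ∈ JF F) (h : z ^ p ∈ USF S F ⊔ JSF S F) :
    z ∈ USF S F ⊔ JSF S F := by
  rw [mem_USF_sup_JSF_iff] at h ⊢
  refine ⟨hz, fun q hq g => ?_⟩
  have h1 := h.2 q hq g
  rw [cmp_pow, Units.val_pow_eq_pow_val, norm_pow] at h1
  exact (pow_eq_one_iff_of_nonneg (norm_nonneg _) (Fact.out : p.Prime).ne_zero).1 h1

theorem GU_hJsp (y : JJ) (hy : y ∈ JSF S F) (h : y ∈ USF S F ⊔ JpF p F) :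
    y ∈ (JSF S F).map (powMonoidHom p) := by
  obtain ⟨u, hu, _, ⟨w, hw, rfl⟩, huw⟩ := Subgroup.mem_sup.1 h
  have huw' : u * w ^ p = y := huw
  refine ⟨cutT S w, AR1_cut_mem S F hw, ?_⟩
  show (cutT S w) ^ p = y
  apply JJ.ext
  intro q g
  rw [cmp_pow]
  by_cases hq : q ∈ S
  · rw [cmp_cutT_of_mem w hq g, ← huw', cmp_mul, cmp_pow, hu.2.1 q hq g, one_mul]
  · rw [cmp_cutT_of_not_mem w hq g, one_pow, hy.2 q hq g]

theorem GU_E_eq : FX F ⊓ (USF S F ⊔ JSF S F).comap diag = EFT F S := by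
  ext a
  constructor
  · rintro ⟨ha, ha'⟩
    exact ⟨ha, ((mem_USF_sup_JSF_iff S F _).1 ha').2⟩
  · rintro ⟨ha, ha'⟩
    exact ⟨ha, (mem_USF_sup_JSF_iff S F _).2 ⟨AR2_diag_mem F ha, ha'⟩⟩

end

end Fermat.Agent.S55Lib
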