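import Fermat.Agent.S55.W.Arith
import Fermat.Agent.S55.G.G1Defs
import Fermat.Agent.S55.G3.Nrm

/-!
# S55, root `G_levelU` (existence theorem): definitions
-/

set_option autoImplicit false
set_option linter.unusedSectionVars false
set_option linter.unusedVariables false

namespace Fermat.Agent.S55Lib

noncomputable section

open groupCohomology

/-! ### ideles of the `S`-tower and their classes in `C♯` -/

section ToCSh
variable (S : Finset Nat.Primes)

/-- ideles of the fields of the `S`-tower -/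
abbrev JJS : Type := WSm (levS S) (Additive JJ)

/-- `J → C` on the `S`-tower -/
def JJStoCCS : JJS S →+ CCS S where
  toFun x := ⟨Additive.ofMul (CC.mk (Additive.toMul (x : Additive JJ))), by
    obtain ⟨U, hU, hx⟩ := x.2
    exact ⟨U, hU, fun s hs =>
      congrArg (fun y : Additive JJ => Additive.ofMul (CC.mk (Additive.toMul y))) (hx s hs)⟩⟩
  map_zero' := rfl
  map_add' x y := rfl

lemma JJStoCCS_equivar : Equivar GQ (JJStoCCS S) := fun _ _ => rfl

/-- `J → C♯` on the `S`-tower -/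
def JJStoCSh : JJS S →+ CSh S := (WCoker.mk GQ (upsS S) (upsS_equivar S)).comp (JJStoCCS S)

lemma JJStoCSh_equivar : Equivar GQ (JJStoCSh S) := fun _ _ => rfl

/-- the ideles of a field `F` of the `S`-tower, as elements of `JJS` -/
def JFtoJJS (F : IntermediateField ℚ Qbar) (hF : F.fixingSubgroup ∈ (levS S).mem) :
    Additive ↥(JF F) →+ JJS S where
  toFun x := ⟨Additive.ofMul ((Additive.toMul x : ↥(JF F)) : JJ), F.fixingSubgroup, hF,
    fun s hs => congrArg Additive.ofMul ((Additive.toMul x : ↥(JF F)).2 s hs)⟩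
  map_zero' := rfl
  map_add' x y := rfl

/-- the class in `C♯` of an idele of a field `F` of the `S`-tower -/
def iotaF (F : IntermediateField ℚ Qbar) (hF : F.fixingSubgroup ∈ (levS S).mem) :
    Additive ↥(JF F) →+ CSh S := (JJStoCSh S).comp (JFtoJJS S F hF)

end ToCSh

/-! ### subgroups of the ideles of `F` -/

/-- principal ideles of `F` -/
def PFg (F : IntermediateField ℚ Qbar) : Subgroup JJ := (FX F).map diag
/-- unit ideles of `F` outside `S`, trivial at `S` -/
def USF (S : Finset Nat.Primes) (F : IntermediateField ℚ Qbar) : Subgroup JJ := JF F ⊓ UId S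
/-- ideles of `F` supported at `S` -/
def JSF (S : Finset Nat.Primes) (F : IntermediateField ℚ Qbar) : Subgroup JJ := JF F ⊓ JT S
/-- `p`-th powers of ideles of `F` -/
def JpF (p : ℕ) (F : IntermediateField ℚ Qbar) : Subgroup JJ := (JF F).map (powMonoidHom p)
/-- `p`-th powers in `F^×` -/
def Fpg (p : ℕ) (F : IntermediateField ℚ Qbar) : Subgroup Qbarˣ := (FX F).map (powMonoidHom p)

/-- `Δ₁`: elements of `F^×` whose valuations outside `S` are divisible by `p` -/
def D1g (p : ℕ) (S : Finset Nat.Primes) (F : IntermediateField ℚ Qbar) : Subgroup Qbarˣ :=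
  FX F ⊓ (USF S F ⊔ JSF S F ⊔ JpF p F).comap diag

/-- `V_S`: elements of `Δ₁` which are local `p`-th powers at `S` -/
def VSg (p : ℕ) (S : Finset Nat.Primes) (F : IntermediateField ℚ Qbar) : Subgroup Qbarˣ :=
  FX F ⊓ (USF S F ⊔ JpF p F).comap diag

/-! ### Kummer theory -/

/-- the subgroup of `V` fixing all `p`-th roots of the elements of `Δ` -/
def kumU (p : ℕ) (V : Subgroup GQ) (Δ : Subgroup Qbarˣ) : Subgroup GQ where
  carrier := {s | s ∈ V ∧ ∀ ξ : Qbarˣ, ξ ^ p ∈ Δ → s • ξ = ξ}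
  one_mem' := ⟨one_mem V, fun ξ _ => one_smul _ ξ⟩
  mul_mem' := fun {a b} ha hb => ⟨mul_mem ha.1 hb.1, fun ξ hξ => by
    rw [mul_smul, hb.2 ξ hξ, ha.2 ξ hξ]⟩
  inv_mem' := fun {a} ha => ⟨inv_mem ha.1, fun ξ hξ => by
    rw [inv_smul_eq_iff, ha.2 ξ hξ]⟩

lemma mem_kumU {p : ℕ} {V : Subgroup GQ} {Δ : Subgroup Qbarˣ} {s : GQ} :
    s ∈ kumU p V Δ ↔ s ∈ V ∧ ∀ ξ : Qbarˣ, ξ ^ p ∈ Δ → s • ξ = ξ := Iff.rfl

lemma kumU_le (p : ℕ) (V : Subgroup GQ) (Δ : Subgroup Qbarˣ) : kumU p V Δ ≤ V := fun _ h => h.1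

/-- `U'` is a level of the `S`-tower with `V/U'` abelian of exponent `p` -/
structure IsKK (p : ℕ) (S : Finset Nat.Primes) (V U' : Subgroup GQ) : Prop where
  mem : U' ∈ (levS S).mem
  le : U' ≤ V
  comm : ∀ s ∈ V, ∀ t ∈ V, s * t * s⁻¹ * t⁻¹ ∈ U'
  pow : ∀ s ∈ V, s ^ p ∈ U'

/-- the norm group `N_{V/U'} C♯(U')` -/
def nrmGrp (S : Finset Nat.Primes) (U' V : Subgroup GQ) : AddSubgroup (CSh S) :=
  AddSubgroup.closure {x | ∃ a ∈ inv U' (CSh S), nrm U' V a = x}

/-- `p C♯(V)` -/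
def pGrp (p : ℕ) (S : Finset Nat.Primes) (V : Subgroup GQ) : AddSubgroup (CSh S) :=
  (inv V (CSh S)).map (DistribSMul.toAddMonoidHom (CSh S) p)

end

end Fermat.Agent.S55Lib
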