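import Fermat.Agent.S55.W.Arith
import Fermat.Agent.S55.G3.Nrm
import Fermat.Agent.S55.P.Defs
import Fermat.Agent.S55.G2.Defs

/-!
# S55, root `G_levelU` (existence theorem): definitions
-/

set_option autoImplicit false
set_option linter.unusedSectionVars false
set_option linter.unusedVariables false

namespace Fermat.Agent.S55Lib

noncomputable section

open groupCohomology

/-- `U` is a level of `levS S` inside `V` with `V/U` elementary abelian of exponent `p` -/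
def GU_El (p : ℕ) (S : Finset Nat.Primes) (V U : Subgroup GQ) : Prop :=
  U ∈ (levS S).mem ∧ U ≤ V ∧ (∀ s ∈ V, s ^ p ∈ U) ∧ (∀ s ∈ V, ∀ t ∈ V, s * t * s⁻¹ * t⁻¹ ∈ U)

/-- the subgroup `p A` of `A = (C♯)^V` -/
def GU_pA (p : ℕ) (S : Finset Nat.Primes) (V : Subgroup GQ) : AddSubgroup (inv V (CSh S)) :=
  (nsmulAddMonoidHom p : inv V (CSh S) →+ inv V (CSh S)).range

/-- the class in `C♯` of an idele of `F` -/
def GU_cls (S : Finset Nat.Primes) (F : IntermediateField ℚ Qbar)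
    (hF : F.fixingSubgroup ∈ (levS S).mem) (x : JF F) : inv F.fixingSubgroup (CSh S) :=
  ⟨WCoker.mk GQ (upsS S) (upsS_equivar S)
    ⟨Additive.ofMul (CC.mk (x : JJ)), F.fixingSubgroup, hF, fun s hs =>
      congrArg (fun y : JJ => Additive.ofMul (CC.mk y)) (x.2 s hs)⟩, fun s hs => by
    rw [← WCoker.equivar_mk]
    congr 1
    exact Subtype.ext (congrArg (fun y : JJ => Additive.ofMul (CC.mk y)) (x.2 s hs))⟩

/-- ideles of `F` which are units outside `T` -/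
def GU_J1 (F : IntermediateField ℚ Qbar) (T : Finset Nat.Primes) : Subgroup JJ where
  carrier := {x | x ∈ JF F ∧ ∀ q ∉ T, ∀ g, ‖((cmp x q g : (Om q)ˣ) : Om q)‖ = 1}
  one_mem' := ⟨one_mem _, fun _ _ _ => by simp⟩
  mul_mem' := fun {a b} ha hb => ⟨mul_mem ha.1 hb.1, fun q hq g => by
      rw [cmp_mul, Units.val_mul, norm_mul, ha.2 q hq g, hb.2 q hq g, one_mul]⟩
  inv_mem' := fun {a} ha => ⟨inv_mem ha.1, fun q hq g => by
      rw [cmp_inv, Units.val_inv_eq_inv_val, norm_inv, ha.2 q hq g, inv_one]⟩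

/-- `W = U^S(F) · J₁^p` -/
def GU_W (p : ℕ) (F : IntermediateField ℚ Qbar) (S S₁ : Finset Nat.Primes) : Subgroup JJ :=
  (JF F ⊓ UId S) ⊔ (GU_J1 F S₁).map (powMonoidHom p)

/-- `W₀ = J_S(F) · U^S(F) · J₁^p` -/
def GU_W0 (p : ℕ) (F : IntermediateField ℚ Qbar) (S S₁ : Finset Nat.Primes) : Subgroup JJ :=
  (JF F ⊓ JT S) ⊔ GU_W p F S S₁

/-- the diagonal map on the `T`-units of `F` -/
def GU_dE (F : IntermediateField ℚ Qbar) (T : Finset Nat.Primes) : EFT F T →* JJ :=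
  diag.comp (EFT F T).subtype

/-- the `p`-th powers of `T`-units -/
def GU_P (p : ℕ) (F : IntermediateField ℚ Qbar) (T : Finset Nat.Primes) : Subgroup (EFT F T) :=
  (powMonoidHom p : EFT F T →* EFT F T).range

/-- the level of the Kummer extension `F(D^{1/p})` -/
def GU_UD (p : ℕ) (F : IntermediateField ℚ Qbar) (T : Finset Nat.Primes)
    (D : Subgroup (EFT F T)) : Subgroup GQ where
  carrier := {s | s ∈ F.fixingSubgroup ∧
    ∀ ξ : Qbar, (∃ d ∈ D, ξ ^ p = (((d : EFT F T) : Qbarˣ) : Qbar)) → s ξ = ξ}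
  one_mem' := ⟨one_mem _, fun _ _ => rfl⟩
  mul_mem' := fun {a b} ha hb => ⟨mul_mem ha.1 hb.1, fun ξ hξ => by
    rw [AlgEquiv.mul_apply, hb.2 ξ hξ, ha.2 ξ hξ]⟩
  inv_mem' := fun {a} ha => ⟨inv_mem ha.1, fun ξ hξ => by
    have h := ha.2 ξ hξ
    calc a⁻¹ ξ = a⁻¹ (a ξ) := by rw [h]
      _ = ξ := a.symm_apply_apply ξ⟩

end

end Fermat.Agent.S55Lib
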