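import Fermat.Agent.S55.GU.Base
import Fermat.Agent.S55.P.Defs

/-!
# S55, `G_levelU`: the hypotheses coming from the other chapters
-/

set_option autoImplicit false
set_option linter.unusedSectionVars false
set_option linter.unusedVariables false

namespace Fermat.Agent.S55Lib

noncomputable section

open groupCohomology

/-- the hypothesis delivered by chapter G3 (`exists_smul_mem_image`) -/
def HasImage (p : ℕ) (S : Finset Nat.Primes) : Prop :=
  ∀ (F : IntermediateField ℚ Qbar) (hF : F.fixingSubgroup ∈ (levS S).mem),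
    FixesMu p F.fixingSubgroup → ∀ c ∈ inv F.fixingSubgroup (CSh S),
      ∃ m : ℕ, m.Coprime p ∧ ∃ x : Additive ↥(JF F), iotaF S F hF x = m • c

/-- the hypothesis `G_classModule` -/
def HasCM (p : ℕ) (S : Finset Nat.Primes) : Prop :=
  ∀ (U : Subgroup GQ) [U.Normal], U ∈ (levS S).mem → FixesMu p U →
    ∃ u : (GQ ⧸ U) × (GQ ⧸ U) → inv U (CSh S), IsClassModule p (GQ ⧸ U) (inv U (CSh S)) u

end

end Fermat.Agent.S55Lib
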