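import Fermat.Agent.S55.GU.Base
import Fermat.Agent.S55.G.Descent

/-!
# S55, `G_levelU`, leaf (IO1): the class map `ι_F : J(F) → C♯`
-/

set_option autoImplicit false
set_option linter.unusedSectionVars false
set_option linter.unusedVariables false
set_option linter.style.haveILetI false

namespace Fermat.Agent.S55Lib

noncomputable section

variable (S : Finset Nat.Primes) (F : IntermediateField ℚ Qbar)

theorem iotaF_mem_inv (hF : F.fixingSubgroup ∈ (levS S).mem) (x : Additive ↥(JF F)) :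
    iotaF S F hF x ∈ inv F.fixingSubgroup (CSh S) := by
  intro s hs
  show s • JJStoCSh S (JFtoJJS S F hF x) = JJStoCSh S (JFtoJJS S F hF x)
  rw [← JJStoCSh_equivar]
  congr 1
  apply Subtype.ext
  exact congrArg Additive.ofMul ((Additive.toMul x : ↥(JF F)).2 s hs)

/-- `x = diag a * u`, `u ∈ UId S`; for `s ∈ U_F`: `diag (s a / a) = u / s u ∈ UId S`, trivial at
`S ≠ ∅`, so `s a = a`. -/
theorem iotaF_eq_zero_iff (hS : S.Nonempty) [FiniteDimensional ℚ F]
    (hF : F.fixingSubgroup ∈ (levS S).mem) (x : Additive ↥(JF F)) :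
    iotaF S F hF x = 0 ↔ ((Additive.toMul x : ↥(JF F)) : JJ) ∈ PFg F ⊔ USF S F := by
  set X : JJ := ((Additive.toMul x : ↥(JF F)) : JJ) with hX
  have hXF : X ∈ JF F := (Additive.toMul x : ↥(JF F)).2
  constructor
  · intro h
    obtain ⟨u, hu⟩ := (WCoker.mk_eq_zero GQ (upsS S) (upsS_equivar S)).1 h
    set u' : JJ := ((Additive.toMul (u : Additive (UId S)) : UId S) : JJ) with hu'
    have hu'U : u' ∈ UId S := (Additive.toMul (u : Additive (UId S)) : UId S).2
    have h1 : CC.mk u' = CC.mk X := by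
      have := congrArg (fun c : CCS S => Additive.toMul (c : Additive CC)) hu
      exact this
    obtain ⟨a, ha⟩ : u'⁻¹ * X ∈ diag.range := QuotientGroup.eq.1 h1
    have hXa : X = u' * diag a := by rw [ha, mul_inv_cancel_left]
    have haF : a ∈ FX F := by
      rw [← diag_mem_JF_iff]
      intro s hs
      obtain ⟨q, hq⟩ := hS
      have h2 : s • X = X := hXF s hs
      rw [hXa, smul_mul', smul_diag] at h2
      have h3 : diag (s • a * a⁻¹) = u' * (s • u')⁻¹ := by
        rw [map_mul, map_inv, mul_inv_eq_iff_eq_mul, mul_comm u', mul_assoc, ← h2,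
          inv_mul_cancel_left]
      have h4 : diag (s • a * a⁻¹) ∈ UId S := by
        rw [h3]
        exact mul_mem hu'U (inv_mem (smul_mem_UId S s hu'U))
      have h5 : ((cmp (diag (s • a * a⁻¹)) q 1 : (Om q)ˣ) : Om q) = 1 := by
        rw [h4.1 q hq 1, Units.val_one]
      rw [diag_comp] at h5
      have h6 : ((s • a * a⁻¹ : Qbarˣ) : Qbar) = 1 := by
        apply (iq q).injective
        rw [map_one]
        exact h5
      have h7 : s • a * a⁻¹ = 1 := Units.ext h6
      rw [smul_diag, mul_inv_eq_one.1 h7]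
    have hdF : diag a ∈ JF F := (diag_mem_JF_iff F a).2 haF
    have huF : u' ∈ JF F := by
      have : u' = X * (diag a)⁻¹ := by rw [hXa, mul_inv_cancel_right]
      rw [this]
      exact mul_mem hXF (inv_mem hdF)
    rw [hXa, mul_comm]
    exact Subgroup.mul_mem_sup ⟨a, haF, rfl⟩ ⟨huF, hu'U⟩
  · intro h
    obtain ⟨_, ⟨a, haF, rfl⟩, u, ⟨huF, huU⟩, hau⟩ := Subgroup.mem_sup.1 h
    refine (WCoker.mk_eq_zero GQ (upsS S) (upsS_equivar S)).2
      ⟨⟨Additive.ofMul (⟨u, huU⟩ : UId S), F.fixingSubgroup, hF, fun s hs => ?_⟩, ?_⟩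
    · exact congrArg Additive.ofMul (Subtype.ext (huF s hs) : s • (⟨u, huU⟩ : UId S) = ⟨u, huU⟩)
    · apply Subtype.ext
      show Additive.ofMul (CC.mk u) = Additive.ofMul (CC.mk X)
      congr 1
      refine QuotientGroup.eq.2 ⟨a, ?_⟩
      rw [← hau, mul_comm (diag a), inv_mul_cancel_left]

end

end Fermat.Agent.S55Lib
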