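import Fermat.Agent.S55.GU.Iota
import Fermat.Agent.S55.GU.Hyps
import Fermat.Agent.S55.GU.AbsImage

/-!
# S55, `G_levelU`, leaf (IO2): indices in `C♯(F)` computed with ideles
-/

set_option autoImplicit false
set_option linter.unusedSectionVars false
set_option linter.unusedVariables false
set_option linter.style.haveILetI false

namespace Fermat.Agent.S55Lib

noncomputable section

variable {p : ℕ} [Fact p.Prime] (S : Finset Nat.Primes) (F : IntermediateField ℚ Qbar)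

open Classical in
/-- `ι_F` extended by zero -/
def IO2_io (hF : F.fixingSubgroup ∈ (levS S).mem) (x : JJ) : CSh S :=
  if h : x ∈ JF F then iotaF S F hF (Additive.ofMul (⟨x, h⟩ : ↥(JF F))) else 0

lemma IO2_io_of_mem (hF : F.fixingSubgroup ∈ (levS S).mem) {x : JJ} (h : x ∈ JF F) :
    IO2_io S F hF x = iotaF S F hF (Additive.ofMul (⟨x, h⟩ : ↥(JF F))) := dif_pos h

lemma IO2_io_mul (hF : F.fixingSubgroup ∈ (levS S).mem) {x y : JJ} (hx : x ∈ JF F)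
    (hy : y ∈ JF F) : IO2_io S F hF (x * y) = IO2_io S F hF x + IO2_io S F hF y := by
  rw [IO2_io_of_mem S F hF hx, IO2_io_of_mem S F hF hy, IO2_io_of_mem S F hF (mul_mem hx hy),
    ← map_add]
  rfl

lemma IO2_io_pow (hF : F.fixingSubgroup ∈ (levS S).mem) {x : JJ} (hx : x ∈ JF F) (n : ℕ) :
    IO2_io S F hF (x ^ n) = n • IO2_io S F hF x := by
  rw [IO2_io_of_mem S F hF hx, IO2_io_of_mem S F hF (pow_mem hx n), ← map_nsmul]
  rfl

lemma IO2_io_mem (hF : F.fixingSubgroup ∈ (levS S).mem) {x : JJ} (hx : x ∈ JF F) :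
    IO2_io S F hF x ∈ inv F.fixingSubgroup (CSh S) := by
  rw [IO2_io_of_mem S F hF hx]
  exact iotaF_mem_inv S F hF _

lemma IO2_io_eq_zero (hS : S.Nonempty) [FiniteDimensional ℚ F]
    (hF : F.fixingSubgroup ∈ (levS S).mem) {x : JJ} (hx : x ∈ JF F) :
    IO2_io S F hF x = 0 ↔ x ∈ PFg F ⊔ USF S F := by
  rw [IO2_io_of_mem S F hF hx]
  exact iotaF_eq_zero_iff S F hS hF _

lemma IO2_PU_le [FiniteDimensional ℚ F] : PFg F ⊔ USF S F ≤ JF F := by
  apply sup_le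
  · rintro _ ⟨a, ha, rfl⟩
    exact (diag_mem_JF_iff F a).2 ha
  · exact inf_le_left

lemma IO2_Jp_le : JpF p F ≤ JF F := by
  rintro _ ⟨z, hz, rfl⟩
  exact pow_mem hz p

/-- the subgroup `ι(Y) + pA` -/
def IO2_M (p : ℕ) (hF : F.fixingSubgroup ∈ (levS S).mem) (Y : Subgroup JJ) (hYJ : Y ≤ JF F) :
    AddSubgroup (CSh S) where
  carrier := {c | ∃ y ∈ Y, ∃ a ∈ inv F.fixingSubgroup (CSh S), c = IO2_io S F hF y + p • a}
  zero_mem' := ⟨1, one_mem _, 0, zero_mem _, by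
    have h := IO2_io_pow S F hF (one_mem (JF F)) 0
    rw [pow_zero, zero_smul] at h
    rw [h, smul_zero, add_zero]⟩
  add_mem' := by
    rintro _ _ ⟨y, hy, a, ha, rfl⟩ ⟨y', hy', a', ha', rfl⟩
    refine ⟨y * y', mul_mem hy hy', a + a', add_mem ha ha', ?_⟩
    rw [IO2_io_mul S F hF (hYJ hy) (hYJ hy'), smul_add]
    abel
  neg_mem' := by
    rintro _ ⟨y, hy, a, ha, rfl⟩
    refine ⟨y⁻¹, inv_mem hy, -a, neg_mem ha, ?_⟩
    have h := IO2_io_mul S F hF (hYJ hy) (hYJ (inv_mem hy))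
    have h0 := IO2_io_pow S F hF (one_mem (JF F)) 0
    rw [pow_zero, zero_smul] at h0
    rw [mul_inv_cancel, h0] at h
    rw [smul_neg, neg_add, ← sub_eq_zero]
    have : IO2_io S F hF y⁻¹ = - IO2_io S F hF y := by
      rw [eq_neg_iff_add_eq_zero, add_comm]; exact h.symm
    rw [this]
    abel

lemma IO2_main (hS : S.Nonempty) [FiniteDimensional ℚ F]
    (hF : F.fixingSubgroup ∈ (levS S).mem) (hμ : FixesMu p F.fixingSubgroup)
    (hIm : HasImage p S) (Y : Subgroup JJ) (hYJ : Y ≤ JF F) (hPU : PFg F ⊔ USF S F ≤ Y)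
    (hJp : JpF p F ≤ Y) :
    (IO2_M S F p hF Y hYJ).relIndex (inv F.fixingSubgroup (CSh S)) = Y.relIndex (JF F) := by
  refine GU_relIndex_image p (JF F) Y hYJ (inv F.fixingSubgroup (CSh S)) (IO2_io S F hF)
    (fun x hx y hy => IO2_io_mul S F hF hx hy) (fun x hx => IO2_io_mem S F hF hx)
    (fun x hx h => hPU ((IO2_io_eq_zero S F hS hF hx).1 h))
    (fun x hx => hJp ⟨x, hx, rfl⟩) ?_ _ (fun c => Iff.rfl)
  intro c hc
  obtain ⟨m, hm, x, hx⟩ := hIm F hF hμ c hc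
  refine ⟨m, hm, ((Additive.toMul x : ↥(JF F)) : JJ), (Additive.toMul x : ↥(JF F)).2, ?_⟩
  rw [IO2_io_of_mem S F hF (Additive.toMul x : ↥(JF F)).2, ← hx]
  rfl

/-- `[A : pA] = B` -/
theorem relIndex_pGrp (hS : S.Nonempty) [FiniteDimensional ℚ F]
    (hF : F.fixingSubgroup ∈ (levS S).mem) (hμ : FixesMu p F.fixingSubgroup)
    (hIm : HasImage p S) :
    (pGrp p S F.fixingSubgroup).relIndex (inv F.fixingSubgroup (CSh S)) =
      (PFg F ⊔ USF S F ⊔ JpF p F).relIndex (JF F) := by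
  have hYJ : PFg F ⊔ USF S F ⊔ JpF p F ≤ JF F := sup_le (IO2_PU_le S F) (IO2_Jp_le F)
  rw [← IO2_main S F hS hF hμ hIm _ hYJ le_sup_left le_sup_right]
  congr 1
  ext c
  constructor
  · rintro ⟨a, ha, rfl⟩
    refine ⟨1, one_mem _, a, ha, ?_⟩
    have h0 := IO2_io_pow S F hF (one_mem (JF F)) 0
    rw [pow_zero, zero_smul] at h0
    rw [h0, zero_add]
    rfl
  · rintro ⟨y, hy, a, ha, rfl⟩
    obtain ⟨y0, hy0, _, ⟨z, hz, rfl⟩, rfl⟩ := Subgroup.mem_sup.1 hy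
    refine ⟨IO2_io S F hF z + a, add_mem (IO2_io_mem S F hF hz) ha, ?_⟩
    show p • (IO2_io S F hF z + a) = _
    have h1 : IO2_io S F hF (y0 * z ^ p) = p • IO2_io S F hF z := by
      rw [IO2_io_mul S F hF (IO2_PU_le S F hy0) (pow_mem hz p),
        (IO2_io_eq_zero S F hS hF (IO2_PU_le S F hy0)).2 hy0, zero_add, IO2_io_pow S F hF hz]
    show _ = IO2_io S F hF (y0 * z ^ p) + p • a
    rw [h1, smul_add]

/-- `[A : N] ≤ c` if `N ⊇ pA + ι(J_S)` -/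
theorem relIndex_le_c (hS : S.Nonempty) [FiniteDimensional ℚ F]
    (hF : F.fixingSubgroup ∈ (levS S).mem) (hμ : FixesMu p F.fixingSubgroup)
    (hIm : HasImage p S)
    (hc : (PFg F ⊔ USF S F ⊔ JSF S F ⊔ JpF p F).relIndex (JF F) ≠ 0)
    (N : AddSubgroup (CSh S)) (hpN : pGrp p S F.fixingSubgroup ≤ N)
    (hJS : ∀ y : ↥(JF F), (y : JJ) ∈ JT S → iotaF S F hF (Additive.ofMul y) ∈ N) :
    N.relIndex (inv F.fixingSubgroup (CSh S)) ≤
      (PFg F ⊔ USF S F ⊔ JSF S F ⊔ JpF p F).relIndex (JF F) := by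
  have hYJ : PFg F ⊔ USF S F ⊔ JSF S F ⊔ JpF p F ≤ JF F :=
    sup_le (sup_le (IO2_PU_le S F) inf_le_left) (IO2_Jp_le F)
  have h1 := IO2_main S F hS hF hμ hIm _ hYJ (le_sup_left.trans le_sup_left) le_sup_right
  rw [← h1] at hc ⊢
  have hle : IO2_M S F p hF _ hYJ ≤ N := by
    rintro _ ⟨y, hy, a, ha, rfl⟩
    refine add_mem ?_ (hpN ⟨a, ha, rfl⟩)
    obtain ⟨y1, hy1, _, ⟨z, hz, rfl⟩, rfl⟩ := Subgroup.mem_sup.1 hy
    obtain ⟨y0, hy0, w, hw, rfl⟩ := Subgroup.mem_sup.1 hy1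
    show IO2_io S F hF (y0 * w * z ^ p) ∈ N
    rw [IO2_io_mul S F hF (mul_mem (IO2_PU_le S F hy0) hw.1) (pow_mem hz p),
      IO2_io_mul S F hF (IO2_PU_le S F hy0) hw.1,
      (IO2_io_eq_zero S F hS hF (IO2_PU_le S F hy0)).2 hy0, zero_add, IO2_io_pow S F hF hz]
    refine add_mem ?_ (hpN ⟨_, IO2_io_mem S F hF hz, rfl⟩)
    rw [IO2_io_of_mem S F hF hw.1]
    exact hJS ⟨w, hw.1⟩ hw.2
  exact Nat.le_of_dvd (Nat.pos_of_ne_zero hc) (AddSubgroup.relIndex_dvd_of_le_left _ hle)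

end

end Fermat.Agent.S55Lib
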