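import Fermat.Agent.S55.GU.Base

/-!
# S55, `G_levelU`, leaves (MX1) (MX2): the family `KK`
-/

set_option autoImplicit false
set_option linter.unusedSectionVars false
set_option linter.unusedVariables false
set_option linter.style.haveILetI false

namespace Fermat.Agent.S55Lib

noncomputable section

open groupCohomology

variable {p : ℕ} (S : Finset Nat.Primes)

theorem isKK_self (V : Subgroup GQ) (hV : V ∈ (levS S).mem) : IsKK p S V V :=
  ⟨hV, le_rfl, fun s hs t ht => mul_mem (mul_mem (mul_mem hs ht) (inv_mem hs)) (inv_mem ht),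
    fun s hs => pow_mem hs p⟩

lemma MX1_inf_mem {U' U'' : Subgroup GQ} (h' : U' ∈ (levS S).mem) (h'' : U'' ∈ (levS S).mem) :
    U' ⊓ U'' ∈ (levS S).mem := by
  obtain ⟨F', hF', hn', hP', rfl⟩ := h'
  obtain ⟨F'', hF'', hn'', hP'', rfl⟩ := h''
  exact ⟨F' ⊔ F'', IntermediateField.finiteDimensional_sup F' F'', hn'.sup hn'', hP'.sup hP'',
    (IntermediateField.fixingSubgroup_sup).symm⟩

variable {S}

theorem IsKK.inf {V U' U'' : Subgroup GQ} (h' : IsKK p S V U') (h'' : IsKK p S V U'') :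
    IsKK p S V (U' ⊓ U'') :=
  ⟨MX1_inf_mem S h'.mem h''.mem, inf_le_left.trans h'.le,
    fun s hs t ht => ⟨h'.comm s hs t ht, h''.comm s hs t ht⟩,
    fun s hs => ⟨h'.pow s hs, h''.pow s hs⟩⟩

theorem IsKK.relIndex_ne_zero {V U' : Subgroup GQ} (h' : IsKK p S V U') : U'.relIndex V ≠ 0 := by
  haveI := (levS S).finiteIndex U' h'.mem
  exact (inferInstance : (U'.subgroupOf V).FiniteIndex).index_ne_zero

variable (S)

/-- a bounded family closed under `⊓` has a smallest element -/
theorem exists_min_KK (V : Subgroup GQ) (hV : V ∈ (levS S).mem) (B : ℕ)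
    (hB : ∀ U', IsKK p S V U' → U'.relIndex V ≤ B) :
    ∃ U, IsKK p S V U ∧ ∀ U', IsKK p S V U' → U ≤ U' := by
  classical
  -- maximise the index
  have hex : ∃ n, ∃ U, IsKK p S V U ∧ U.relIndex V = n := ⟨_, V, isKK_self S V hV, rfl⟩
  have hbd : ∀ n, (∃ U, IsKK p S V U ∧ U.relIndex V = n) → n ≤ B := by
    rintro n ⟨U, hU, rfl⟩
    exact hB U hU
  obtain ⟨U, hU, hUn⟩ := Nat.findGreatest_spec (P := fun n => ∃ U, IsKK p S V U ∧ U.relIndex V = n)
    (hbd _ hex.choose_spec) hex.choose_spec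
  refine ⟨U, hU, fun U' hU' => ?_⟩
  have h1 : (U ⊓ U').relIndex V ≤ U.relIndex V := by
    rw [hUn]
    exact Nat.le_findGreatest (hB _ (hU.inf hU')) ⟨_, hU.inf hU', rfl⟩
  have h2 := Subgroup.relIndex_mul_relIndex (U ⊓ U') U V inf_le_left hU.le
  have h3 : (U ⊓ U').relIndex U = 1 := by
    have h0 := hU.relIndex_ne_zero
    have h4 : (U ⊓ U').relIndex U ≠ 0 := by
      intro h
      rw [h, zero_mul] at h2
      exact (hU.inf hU').relIndex_ne_zero h2.symm
    by_contra hne
    have h5 : 2 ≤ (U ⊓ U').relIndex U := by omega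
    have h6 : 2 * U.relIndex V ≤ (U ⊓ U').relIndex V := by
      rw [← h2]
      exact Nat.mul_le_mul_right _ h5
    omega
  exact (Subgroup.relIndex_eq_one.1 h3).trans inf_le_right

end

end Fermat.Agent.S55Lib
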