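import Fermat.Agent.S55.GU.KKBasic
import Fermat.Agent.S55.P.Places

/-!
# S55, `G_levelU`, leaf (MX3): the kernel of a level cocycle is in `KK`
-/

set_option autoImplicit false
set_option linter.unusedSectionVars false
set_option linter.unusedVariables false
set_option linter.style.haveILetI false

namespace Fermat.Agent.S55Lib

noncomputable section

open groupCohomology

variable {p : ℕ} (S : Finset Nat.Primes)

theorem isKK_ker (V : Subgroup GQ) (hV : V ∈ (levS S).mem)
    (N : Type) [AddCommGroup N] [DistribMulAction GQ N] (hpN : ∀ n : N, p • n = 0)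
    (hVN : ∀ s ∈ V, ∀ n : N, s • n = n) (f : GQ → N) (hf : f ∈ LZ1 (levS S) N) :
    ∃ U', IsKK p S V U' ∧ ∀ s ∈ U', f s = 0 := by
  obtain ⟨hcoc, W, hW, hconst⟩ := hf
  have hcoc' : ∀ g h : GQ, f (g * h) = g • f h + f g := hcoc
  have hVn := (levS S).normal V hV
  have hf1 : f 1 = 0 := by
    have := hcoc' 1 1
    rw [mul_one, one_smul] at this
    exact left_eq_add.mp this
  have hadd : ∀ s ∈ V, ∀ t : GQ, f (s * t) = f t + f s := fun s hs t => by
    rw [hcoc', hVN s hs]
  have hinv : ∀ s ∈ V, f s⁻¹ = - f s := fun s hs => by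
    have := hadd s hs s⁻¹
    rw [mul_inv_cancel, hf1] at this
    exact eq_neg_of_add_eq_zero_left this.symm
  let U' : Subgroup GQ :=
    { carrier := {s | s ∈ V ∧ f s = 0}
      one_mem' := ⟨one_mem V, hf1⟩
      mul_mem' := fun {a b} ha hb => ⟨mul_mem ha.1 hb.1, by rw [hadd a ha.1, ha.2, hb.2, add_zero]⟩
      inv_mem' := fun {a} ha => ⟨inv_mem ha.1, by rw [hinv a ha.1, ha.2, neg_zero]⟩ }
  haveI hU'n : U'.Normal := by
    constructor
    intro s hs g
    refine ⟨hVn.conj_mem s hs.1 g, ?_⟩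
    have h1 : f (g * s * g⁻¹) = g • f g⁻¹ + f g := by
      rw [mul_assoc, hcoc' g (s * g⁻¹), hadd s hs.1, hs.2, add_zero]
    rw [h1, ← hcoc', mul_inv_cancel, hf1]
  have hWV := MX1_inf_mem S hW hV
  have hle : W ⊓ V ≤ U' := fun s hs => ⟨hs.2, by
    have := hconst 1 s hs.1
    rw [one_mul, hf1] at this
    exact this⟩
  obtain ⟨F, hF, hn, hP, hFe⟩ := hWV
  have hmem : U' ∈ (levS S).mem :=
    PL_mem_levS_of_le S U' F hF (by rw [← hFe]; exact hle)
      (fun q hq A hA => (hP.2 q hq A hA).trans (by rw [← hFe]; exact hle))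
  have hpow : ∀ s ∈ V, ∀ n : ℕ, f (s ^ n) = n • f s := by
    intro s hs n
    induction n with
    | zero => rw [pow_zero, hf1, zero_smul]
    | succ k ih => rw [pow_succ', hadd s hs, ih, succ_nsmul]
  refine ⟨U', ⟨hmem, fun s hs => hs.1, fun s hs t ht => ?_, fun s hs => ?_⟩, fun s hs => hs.2⟩
  · refine ⟨mul_mem (mul_mem (mul_mem hs ht) (inv_mem hs)) (inv_mem ht), ?_⟩
    rw [mul_assoc, mul_assoc, hadd s hs, hadd t ht, hadd s⁻¹ (inv_mem hs), hinv s hs, hinv t ht]
    abel
  · exact ⟨pow_mem hs p, by rw [hpow s hs, hpN]⟩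

end

end Fermat.Agent.S55Lib
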