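import Fermat.Agent.S55.GU.KumGroup
import Fermat.Agent.S55.GU.AbsDual

/-!
# S55, `G_levelU`, leaf (KU4): the degree of the Kummer extension
-/

set_option autoImplicit false
set_option linter.unusedSectionVars false
set_option linter.unusedVariables false
set_option linter.style.haveILetI false

namespace Fermat.Agent.S55Lib

noncomputable section

variable {p : ℕ} [Fact p.Prime] (F : IntermediateField ℚ Qbar)

lemma KU4_exists_root (p : ℕ) [Fact p.Prime] (x : Qbarˣ) : ∃ ξ : Qbarˣ, ξ ^ p = x := by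
  have hp : p.Prime := Fact.out
  obtain ⟨r, hr⟩ := IsAlgClosed.exists_pow_nat_eq (x : Qbar) hp.pos
  have hr0 : r ≠ 0 := by
    intro h0
    rw [h0, zero_pow hp.ne_zero] at hr
    exact (Units.ne_zero _) hr.symm
  exact ⟨Units.mk0 r hr0, Units.ext hr⟩

/-- a chosen `p`-th root -/
def KU4_rt (p : ℕ) [Fact p.Prime] (x : Qbarˣ) : Qbarˣ := (KU4_exists_root p x).choose

lemma KU4_rt_pow (p : ℕ) [Fact p.Prime] (x : Qbarˣ) : KU4_rt p x ^ p = x :=
  (KU4_exists_root p x).choose_spec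

/-- independence of the root -/
lemma KU4_indep (hμ : HasMu p F) {ξ η : Qbarˣ} (h : ξ ^ p = η ^ p) {s : GQ}
    (hs : s ∈ F.fixingSubgroup) : s • ξ * ξ⁻¹ = s • η * η⁻¹ := by
  have h1 : (ξ * η⁻¹) ^ p = 1 := by rw [mul_pow, inv_pow, h, mul_inv_cancel]
  have h2 : ξ * η⁻¹ ∈ FX F := by
    apply hμ
    rw [← Units.val_pow_eq_pow_val, h1, Units.val_one]
  have h3 := KU0_fix hs h2
  rw [smul_mul', smul_inv'] at h3
  have h4 : s • ξ = ξ * η⁻¹ * s • η := mul_inv_eq_iff_eq_mul.1 h3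
  rw [h4, mul_comm (ξ * η⁻¹), mul_assoc, mul_comm ξ, mul_assoc, mul_inv_cancel, mul_one]

/-- the Kummer pairing as a hom in `s` -/
def KU4_chi0 (hμ : HasMu p F) (ξ : Qbarˣ) (hξ : ξ ^ p ∈ FX F) : F.fixingSubgroup →* Qbarˣ where
  toFun s := (s : GQ) • ξ * ξ⁻¹
  map_one' := by
    show (1 : GQ) • ξ * ξ⁻¹ = 1
    rw [one_smul, mul_inv_cancel]
  map_mul' s t := by
    show ((s : GQ) * (t : GQ)) • ξ * ξ⁻¹ = ((s : GQ) • ξ * ξ⁻¹) * ((t : GQ) • ξ * ξ⁻¹)
    obtain ⟨b, -, hbF, hb⟩ := exists_mu_smul F hμ ξ hξ t t.2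
    rw [mul_smul, hb, smul_mul', KU0_fix s.2 hbF, mul_inv_cancel_right, mul_assoc, mul_comm]

lemma KU4_normal (hμ : HasMu p F) (Δ : Subgroup Qbarˣ) (hΔ : Δ ≤ FX F) :
    ((kumU p F.fixingSubgroup Δ).subgroupOf F.fixingSubgroup).Normal := by
  constructor
  intro n hn g
  rw [Subgroup.mem_subgroupOf] at hn ⊢
  have h1 := kumU_comm F hμ Δ hΔ g n g.2 n.2
  have h2 := mul_mem h1 hn
  rw [inv_mul_cancel_right] at h2
  exact h2

/-- `x ↦ (s ↦ s ξ_x / ξ_x)` is a hom `Δ → Hom(U_F/kumU, ℚ̄^×)` with kernel `F^{×p}`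
(`mem_of_fixed_F`); (AB5). -/
theorem relIndex_le_kumU [FiniteDimensional ℚ F] (hμ : HasMu p F) (Δ : Subgroup Qbarˣ)
    (hle : Fpg p F ≤ Δ) (hΔ : Δ ≤ FX F)
    (hfin : (kumU p F.fixingSubgroup Δ).relIndex F.fixingSubgroup ≠ 0) :
    (Fpg p F).relIndex Δ ≤ (kumU p F.fixingSubgroup Δ).relIndex F.fixingSubgroup := by
  haveI := KU4_normal F hμ Δ hΔ
  haveI : Finite (F.fixingSubgroup ⧸ (kumU p F.fixingSubgroup Δ).subgroupOf F.fixingSubgroup) :=
    Nat.finite_of_card_ne_zero hfin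
  have hrt : ∀ x : Δ, KU4_rt p (x : Qbarˣ) ^ p ∈ FX F := fun x => by
    rw [KU4_rt_pow]; exact hΔ x.2
  let χ1 : Δ → ((F.fixingSubgroup ⧸ (kumU p F.fixingSubgroup Δ).subgroupOf F.fixingSubgroup)
      →* Qbarˣ) := fun x =>
    QuotientGroup.lift _ (KU4_chi0 F hμ (KU4_rt p (x : Qbarˣ)) (hrt x)) (by
      intro s hs
      rw [Subgroup.mem_subgroupOf] at hs
      show (s : GQ) • KU4_rt p (x : Qbarˣ) * (KU4_rt p (x : Qbarˣ))⁻¹ = 1
      rw [hs.2 _ (by rw [KU4_rt_pow]; exact x.2), mul_inv_cancel])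
  have hχ1 : ∀ (x : Δ) (s : F.fixingSubgroup), χ1 x (QuotientGroup.mk s) =
      (s : GQ) • KU4_rt p (x : Qbarˣ) * (KU4_rt p (x : Qbarˣ))⁻¹ := fun x s => rfl
  let χ : Δ →* ((F.fixingSubgroup ⧸ (kumU p F.fixingSubgroup Δ).subgroupOf F.fixingSubgroup)
      →* Qbarˣ) :=
    MonoidHom.mk' χ1 (by
      intro x y
      refine MonoidHom.ext fun s => ?_
      induction s using QuotientGroup.induction_on with
      | H s =>
        rw [MonoidHom.mul_apply, hχ1, hχ1, hχ1]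
        have h1 : KU4_rt p ((x * y : Δ) : Qbarˣ) ^ p
            = (KU4_rt p (x : Qbarˣ) * KU4_rt p (y : Qbarˣ)) ^ p := by
          rw [mul_pow, KU4_rt_pow, KU4_rt_pow, KU4_rt_pow, Subgroup.coe_mul]
        rw [KU4_indep F hμ h1 s.2, smul_mul', mul_inv, mul_mul_mul_comm])
  have hker : χ.ker = (Fpg p F).subgroupOf Δ := by
    ext x
    rw [MonoidHom.mem_ker, Subgroup.mem_subgroupOf]
    constructor
    · intro h
      have h1 : ((KU4_rt p (x : Qbarˣ) : Qbarˣ) : Qbar) ∈ F := by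
        apply mem_of_fixed_F
        intro s hs
        have h2 : χ1 x (QuotientGroup.mk ⟨s, hs⟩) = 1 := by
          have : χ1 x = 1 := h
          rw [this]; rfl
        rw [hχ1, mul_inv_eq_one] at h2
        exact congrArg Units.val h2
      exact ⟨KU4_rt p (x : Qbarˣ), h1, KU4_rt_pow p _⟩
    · rintro ⟨y, hy, hyx⟩
      show χ1 x = 1
      refine MonoidHom.ext fun s => ?_
      induction s using QuotientGroup.induction_on with
      | H s =>
        rw [hχ1]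
        have h1 : KU4_rt p (x : Qbarˣ) ^ p = y ^ p := by
          rw [KU4_rt_pow]; exact hyx.symm
        rw [KU4_indep F hμ h1 s.2, KU0_fix s.2 hy, mul_inv_cancel]
        rfl
  have hcomm : ∀ a b : F.fixingSubgroup ⧸
      (kumU p F.fixingSubgroup Δ).subgroupOf F.fixingSubgroup, a * b = b * a := by
    intro a b
    induction a using QuotientGroup.induction_on with
    | H s =>
      induction b using QuotientGroup.induction_on with
      | H t =>
        rw [← QuotientGroup.mk_mul, ← QuotientGroup.mk_mul, QuotientGroup.eq,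
          Subgroup.mem_subgroupOf]
        have h1 := kumU_comm F hμ Δ hΔ (t : GQ)⁻¹ (s : GQ)⁻¹ (inv_mem t.2) (inv_mem s.2)
        simpa [mul_assoc] using h1
  have h := GU_card_le_of_pairing hcomm χ
  rw [hker] at h
  exact h

end

end Fermat.Agent.S55Lib
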