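import Fermat.Agent.S55.GU.KumRoot

/-!
# S55, `G_levelU`, leaf (KU1): group theory of `kumU`
-/

set_option autoImplicit false
set_option linter.unusedSectionVars false
set_option linter.unusedVariables false
set_option linter.style.haveILetI false

namespace Fermat.Agent.S55Lib

noncomputable section

variable {p : ℕ} [Fact p.Prime] (F : IntermediateField ℚ Qbar)

theorem kumU_normal (V : Subgroup GQ) [V.Normal] (Δ : Subgroup Qbarˣ)
    (hΔ : ∀ g : GQ, ∀ x ∈ Δ, g • x ∈ Δ) : (kumU p V Δ).Normal := by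
  constructor
  intro s hs g
  refine ⟨Subgroup.Normal.conj_mem inferInstance s hs.1 g, fun ξ hξ => ?_⟩
  have h1 : (g⁻¹ • ξ) ^ p ∈ Δ := by
    rw [← smul_pow']
    exact hΔ _ _ hξ
  rw [mul_smul, mul_smul, hs.2 _ h1, smul_inv_smul]

theorem kumU_comm (hμ : HasMu p F) (Δ : Subgroup Qbarˣ) (hΔ : Δ ≤ FX F) (s t : GQ)
    (hs : s ∈ F.fixingSubgroup) (ht : t ∈ F.fixingSubgroup) :
    s * t * s⁻¹ * t⁻¹ ∈ kumU p F.fixingSubgroup Δ := by
  refine ⟨mul_mem (mul_mem (mul_mem hs ht) (inv_mem hs)) (inv_mem ht), fun ξ hξ => ?_⟩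
  have key : ∀ η : Qbarˣ, η ^ p ∈ FX F → (s * t) • η = (t * s) • η := by
    intro η hη
    obtain ⟨a, -, haF, ha⟩ := exists_mu_smul F hμ η hη s hs
    obtain ⟨b, -, hbF, hb⟩ := exists_mu_smul F hμ η hη t ht
    rw [mul_smul, mul_smul, ha, hb, smul_mul', smul_mul', ha, hb, KU0_fix hs hbF, KU0_fix ht haF,
      mul_left_comm]
  have h2 : s * t * s⁻¹ * t⁻¹ = (s * t) * (t * s)⁻¹ := by group
  have h3 : ((t * s)⁻¹ • ξ) ^ p ∈ FX F := by
    rw [← smul_pow', KU0_fix (inv_mem (mul_mem ht hs)) (hΔ hξ)]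
    exact hΔ hξ
  rw [h2, mul_smul, key _ h3, smul_inv_smul]

theorem kumU_pow (hμ : HasMu p F) (Δ : Subgroup Qbarˣ) (hΔ : Δ ≤ FX F) (s : GQ)
    (hs : s ∈ F.fixingSubgroup) : s ^ p ∈ kumU p F.fixingSubgroup Δ := by
  refine ⟨pow_mem hs p, fun ξ hξ => ?_⟩
  obtain ⟨a, hap, haF, ha⟩ := exists_mu_smul F hμ ξ (hΔ hξ) s hs
  have h1 : ∀ n : ℕ, s ^ n • ξ = a ^ n * ξ := by
    intro n
    induction n with
    | zero => simp
    | succ n ih =>
      rw [pow_succ', mul_smul, ih, smul_mul', ha, smul_pow', KU0_fix hs haF, pow_succ']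
      rw [mul_left_comm, mul_assoc]
  rw [h1, hap, one_mul]

end

end Fermat.Agent.S55Lib
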