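import Fermat.Agent.S55.GU.KumRoot
import Fermat.Agent.S55.P.Places
import Fermat.Agent.S55.G.ApproxQ
import Fermat.Agent.S55.G2.PlaceVal
import Fermat.Agent.S55.G2.TameFix

/-!
# S55, `G_levelU`, leaf (KU3): `kumU` is unramified outside `S`
-/

set_option autoImplicit false
set_option linter.unusedSectionVars false
set_option linter.unusedVariables false
set_option linter.style.haveILetI false

namespace Fermat.Agent.S55Lib

noncomputable section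

open ExtCitation

variable {p : ℕ} [Fact p.Prime] (S : Finset Nat.Primes) (F : IntermediateField ℚ Qbar)

/-- `A ↔ g` (`exists_place_of_valuationSubring`), `σ ∈ I_A ≤ U_F`.  `‖ι(g ξ)‖ = ‖z_{q,g}‖`;
`a ∈ F` with `‖ι(g a) - z_{q,g}‖ < ‖z_{q,g}‖` (`approx_at_q`), so `ξ/a` is a unit of `A` whose
`p`-th power is in `F`: `PL_root_fixed`. -/
theorem kumU_inertia (hpS : pPrime p ∈ S) [FiniteDimensional ℚ F]
    (hur : F.IsUnramifiedOutside S) (Δ : Subgroup Qbarˣ)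
    (hΔ : ∀ x ∈ Δ, x ∈ FX F ∧ ∃ z ∈ JF F, ∀ q ∉ S, ∀ g : GQ,
      ‖iq q (g (x : Qbar))‖ = ‖((cmp z q g : (Om q)ˣ) : Om q)‖ ^ p)
    (q : Nat.Primes) (hq : q ∉ S) (A : ValuationSubring Qbar) (hA : A.LiesOverPrime (q : ℕ)) :
    A.inertiaSubgroupIn ℚ ≤ kumU p F.fixingSubgroup Δ := by
  intro σ hσ
  have hIF := hur.2 q hq A hA
  refine ⟨hIF hσ, fun ξ hξ => ?_⟩
  obtain ⟨hxF, z, hz, hnorm⟩ := hΔ _ hξ
  obtain ⟨g₀, hg₀⟩ := exists_place_of_valuationSubring q A hA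
  have hpos : 0 < ‖((cmp z q g₀ : (Om q)ˣ) : Om q)‖ := norm_pos_iff.2 (Units.ne_zero _)
  obtain ⟨a, haF, ha⟩ := approx_at_q F z hz q _ hpos
  have hna : ‖iq q (g₀ a)‖ = ‖((cmp z q g₀ : (Om q)ˣ) : Om q)‖ := LT_norm_eq_of_sub_lt (ha g₀)
  have ha0 : a ≠ 0 := by
    rintro rfl
    rw [map_zero, map_zero, norm_zero] at hna
    exact hpos.ne hna
  have hbF : ((ξ : Qbar) / a) ^ p ∈ F := by
    rw [div_pow]
    refine div_mem ?_ (pow_mem haF p)
    have : ((ξ ^ p : Qbarˣ) : Qbar) ∈ F := hxF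
    rwa [Units.val_pow_eq_pow_val] at this
  have hn1 : ‖iq q (g₀ (((ξ : Qbar) / a) ^ p))‖ = 1 := by
    have h1 := hnorm q hq g₀
    rw [Units.val_pow_eq_pow_val] at h1
    rw [div_pow, map_div₀, map_div₀, norm_div, h1, map_pow, map_pow, norm_pow, hna,
      div_self (pow_ne_zero _ hpos.ne')]
  have hU : S36Lib.IsU A (((ξ : Qbar) / a) ^ p) := by
    refine ⟨(hg₀ _).2 hn1.le, (hg₀ _).2 ?_⟩
    rw [map_inv₀, map_inv₀, norm_inv, hn1, inv_one]
  have h2 := PL_root_fixed q.2 (PL_not_dvd S p hpS q hq) A hA ((ξ : Qbar) / a) hU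
    (fun g hg => (IntermediateField.mem_fixingSubgroup_iff F g).1 (hIF hg) _ hbF) σ hσ
  have h3 : σ a = a := (IntermediateField.mem_fixingSubgroup_iff F σ).1 (hIF hσ) _ haF
  apply Units.ext
  show σ (ξ : Qbar) = ξ
  have h4 : (ξ : Qbar) = (ξ : Qbar) / a * a := by rw [div_mul_cancel₀ _ ha0]
  conv_lhs => rw [h4, map_mul, h2, h3, ← h4]

end

end Fermat.Agent.S55Lib
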