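import Fermat.Agent.S55.GU.KumRoot

/-!
# S55, `G_levelU`, leaf (KU2): `kumU` is open
-/

set_option autoImplicit false
set_option linter.unusedSectionVars false
set_option linter.unusedVariables false
set_option linter.style.haveILetI false

namespace Fermat.Agent.S55Lib

noncomputable section

variable {p : ℕ} [Fact p.Prime] (F : IntermediateField ℚ Qbar)

/-- representatives `x₁ … x_r` of `Δ/F^{×p}`, roots `ξ_i`, `K = F(ξ₁ … ξ_r)`:
`ξ^p = x_i y^p ⇒ ξ = ζ ξ_i y`. -/
theorem kumU_open [FiniteDimensional ℚ F] (hμ : HasMu p F) (Δ : Subgroup Qbarˣ)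
    (hle : Fpg p F ≤ Δ) (hfin : (Fpg p F).relIndex Δ ≠ 0) :
    ∃ K : IntermediateField ℚ Qbar, FiniteDimensional ℚ K ∧
      K.fixingSubgroup ≤ kumU p F.fixingSubgroup Δ := by
  classical
  have hp : p.Prime := Fact.out
  haveI : Finite (Δ ⧸ (Fpg p F).subgroupOf Δ) := Nat.finite_of_card_ne_zero hfin
  have hroot : ∀ c : Δ ⧸ (Fpg p F).subgroupOf Δ,
      ∃ ξ : Qbar, ξ ^ p = (((Quotient.out c : Δ) : Qbarˣ) : Qbar) :=
    fun c => IsAlgClosed.exists_pow_nat_eq _ hp.pos
  choose r hr using hroot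
  refine ⟨F ⊔ IntermediateField.adjoin ℚ (Set.range r), ?_, ?_⟩
  · haveI : FiniteDimensional ℚ (IntermediateField.adjoin ℚ (Set.range r)) :=
      IntermediateField.finiteDimensional_adjoin (fun x _ => Algebra.IsIntegral.isIntegral x)
    exact IntermediateField.finiteDimensional_sup _ _
  · intro s hs
    refine ⟨IntermediateField.fixingSubgroup_antitone le_sup_left hs, fun ξ hξ => ?_⟩
    apply Units.ext
    refine (IntermediateField.mem_fixingSubgroup_iff _ s).1 hs ξ ?_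
    have h1 : (Quotient.out (QuotientGroup.mk (⟨ξ ^ p, hξ⟩ : Δ) : Δ ⧸ (Fpg p F).subgroupOf Δ))⁻¹ *
        (⟨ξ ^ p, hξ⟩ : Δ) ∈ (Fpg p F).subgroupOf Δ := by
      rw [← QuotientGroup.eq, QuotientGroup.out_eq']
    set c : Δ ⧸ (Fpg p F).subgroupOf Δ := QuotientGroup.mk (⟨ξ ^ p, hξ⟩ : Δ) with hc
    obtain ⟨y, hy, hy2⟩ := h1
    have hy3 : (y : Qbar) ^ p = (((Quotient.out c : Δ) : Qbarˣ) : Qbar)⁻¹ * (ξ : Qbar) ^ p := by
      have := congrArg (Units.val) hy2
      simpa using this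
    have hrc : r c ≠ 0 := by
      intro h0
      have := hr c
      rw [h0, zero_pow hp.ne_zero] at this
      exact (Units.ne_zero _) this.symm
    have h2 : ((ξ : Qbar) / (r c * y)) ^ p = 1 := by
      rw [div_pow, mul_pow, hr c, hy3, mul_inv_cancel_left₀ (Units.ne_zero _),
        div_self (pow_ne_zero _ (Units.ne_zero _))]
    have h3 : (ξ : Qbar) = ((ξ : Qbar) / (r c * y)) * (r c * y) := by
      rw [div_mul_cancel₀]
      exact mul_ne_zero hrc (Units.ne_zero _)
    rw [h3]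
    refine mul_mem ((le_sup_left : F ≤ _) (hμ _ h2)) (mul_mem ((le_sup_right : _ ≤ F ⊔ _)
      (IntermediateField.subset_adjoin ℚ _ ⟨c, rfl⟩)) ((le_sup_left : F ≤ _) hy))

end

end Fermat.Agent.S55Lib
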