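import Fermat.Agent.S55.GU.Base
import Fermat.Agent.S55.P.Defs
import Fermat.Agent.S55.G2.PlaceNormal

/-!
# S55, `G_levelU`, leaf (KU0): roots of elements of `F`
-/

set_option autoImplicit false
set_option linter.unusedSectionVars false
set_option linter.unusedVariables false
set_option linter.style.haveILetI false

namespace Fermat.Agent.S55Lib

noncomputable section

variable {p : ℕ} [Fact p.Prime] (F : IntermediateField ℚ Qbar)

/-- Galois theory -/
theorem mem_of_fixed_F [FiniteDimensional ℚ F] (x : Qbar)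
    (h : ∀ s ∈ F.fixingSubgroup, s x = x) : x ∈ F := mem_of_fixed_Q F x h

theorem hasMu_of_fixesMu [FiniteDimensional ℚ F] (h : FixesMu p F.fixingSubgroup) :
    HasMu p F := fun z hz => mem_of_fixed_Q F z (fun s hs => h s hs z hz)

lemma KU0_fix {F : IntermediateField ℚ Qbar} {s : GQ} (hs : s ∈ F.fixingSubgroup) {x : Qbarˣ}
    (hx : x ∈ FX F) : s • x = x :=
  Units.ext ((IntermediateField.mem_fixingSubgroup_iff F s).1 hs x hx)

/-- for `ξ^p ∈ F`, `s ∈ U_F`: `s ξ = ζ ξ` with `ζ ∈ μ_p ⊆ F` -/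
theorem exists_mu_smul (hμ : HasMu p F) (ξ : Qbarˣ) (hξ : ξ ^ p ∈ FX F) (s : GQ)
    (hs : s ∈ F.fixingSubgroup) : ∃ ζ : Qbarˣ, ζ ^ p = 1 ∧ ζ ∈ FX F ∧ s • ξ = ζ * ξ := by
  have h1 : (s • ξ * ξ⁻¹) ^ p = 1 := by
    rw [mul_pow, ← smul_pow', KU0_fix hs hξ, inv_pow, mul_inv_cancel]
  refine ⟨s • ξ * ξ⁻¹, h1, ?_, by rw [inv_mul_cancel_right]⟩
  apply hμ
  rw [← Units.val_pow_eq_pow_val, h1, Units.val_one]

end

end Fermat.Agent.S55Lib
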