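import Fermat.Agent.S55.GU.Hyps
import Fermat.Agent.S55.GU.KKBasic
import Fermat.Agent.S55.T.NormIndex

/-!
# S55, `G_levelU`, leaf (IX): the index of the norm group
-/

set_option autoImplicit false
set_option linter.unusedSectionVars false
set_option linter.unusedVariables false
set_option linter.style.haveILetI false

namespace Fermat.Agent.S55Lib

noncomputable section

open groupCohomology

variable {p : ℕ} [Fact p.Prime] (S : Finset Nat.Primes)

/-- `TN_norm_index` for `G = GQ ⧸ U'`, `C = inv U' (CSh S)`, the subgroup `V/U'`;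
`nrm_bot`, `nrm_quot`, `mem_inv_map_iff` of `G3/Nrm.lean`. -/
theorem nrmGrp_index (hCM : HasCM p S) (V U' : Subgroup GQ) (hV : V ∈ (levS S).mem)
    (hμ : FixesMu p V) (hKK : IsKK p S V U') :
    (nrmGrp S U' V).relIndex (inv V (CSh S)) = U'.relIndex V ∧
      pGrp p S V ≤ nrmGrp S U' V ∧ nrmGrp S U' V ≤ inv V (CSh S) ∧
      ∀ a ∈ inv U' (CSh S), nrm U' V a ∈ nrmGrp S U' V := by
  haveI := (levS S).normal U' hKK.mem
  haveI := (levS S).finiteIndex U' hKK.mem
  obtain ⟨u, hu⟩ := hCM U' hKK.mem (fun s hs => hμ s (hKK.le hs))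
  have hfin := hKK.relIndex_ne_zero
  have hP : IsPGroup p (V.map (QuotientGroup.mk' U')) := by
    rintro ⟨x, hx⟩
    obtain ⟨s, hs, rfl⟩ := hx
    refine ⟨1, ?_⟩
    apply Subtype.ext
    rw [pow_one]
    show (QuotientGroup.mk' U' s) ^ p = 1
    rw [← map_pow]
    exact (QuotientGroup.eq_one_iff _).2 (hKK.pow s hs)
  have hab : ∀ s ∈ V.map (QuotientGroup.mk' U'), ∀ t ∈ V.map (QuotientGroup.mk' U'),
      s * t = t * s := by
    rintro _ ⟨s, hs, rfl⟩ _ ⟨t, ht, rfl⟩
    have h1 : QuotientGroup.mk' U' (s * t * s⁻¹ * t⁻¹) = 1 :=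
      (QuotientGroup.eq_one_iff _).2 (hKK.comm s hs t ht)
    rw [map_mul, map_mul, map_mul, map_inv, map_inv] at h1
    rw [mul_inv_eq_one, mul_inv_eq_iff_eq_mul] at h1
    exact h1
  obtain ⟨h1, h2⟩ := TN_norm_index p u hu (V.map (QuotientGroup.mk' U')) hP hab
  -- the norm
  have hnorm : ∀ a : inv U' (CSh S),
      ((normG (V.map (QuotientGroup.mk' U')) (inv U' (CSh S)) a : inv U' (CSh S)) : CSh S)
        = nrm U' V (a : CSh S) := by
    intro a
    rw [← nrm_bot, ← nrm_quot U' le_rfl hKK.le hfin a a.2, QuotientGroup.map_mk'_self]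
  have hN : nrmGrp S U' V =
      ((normG (V.map (QuotientGroup.mk' U')) (inv U' (CSh S))).range).map
        (inv U' (CSh S)).subtype := by
    apply le_antisymm
    · unfold nrmGrp
      rw [AddSubgroup.closure_le]
      rintro _ ⟨a, ha, rfl⟩
      exact ⟨_, ⟨⟨a, ha⟩, rfl⟩, hnorm ⟨a, ha⟩⟩
    · rintro _ ⟨_, ⟨a, rfl⟩, rfl⟩
      exact AddSubgroup.subset_closure ⟨a, a.2, (hnorm a).symm⟩
  have hI : inv V (CSh S) =
      (inv (V.map (QuotientGroup.mk' U')) (inv U' (CSh S))).map (inv U' (CSh S)).subtype := by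
    ext c
    constructor
    · intro hc
      have hc' : c ∈ inv U' (CSh S) := fun s hs => hc s (hKK.le hs)
      exact ⟨⟨c, hc'⟩, (mem_inv_map_iff U' V ⟨c, hc'⟩).2 hc, rfl⟩
    · rintro ⟨a, ha, rfl⟩
      exact (mem_inv_map_iff U' V a).1 ha
  have hcard : Nat.card (V.map (QuotientGroup.mk' U')) = U'.relIndex V := by
    rw [← Subgroup.relIndex_bot_left, ← Subgroup.relIndex_comap, MonoidHom.comap_bot,
      QuotientGroup.ker_mk']
  refine ⟨?_, ?_, ?_, ?_⟩
  · rw [hN, hI, AddSubgroup.relIndex_map_map_of_injective _ _ (AddSubgroup.subtype_injective _),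
      ← hcard, ← h1]
    rfl
  · rintro _ ⟨c, hc, rfl⟩
    have hc' : c ∈ inv U' (CSh S) := fun s hs => hc s (hKK.le hs)
    have h3 := h2 p (by
      rintro _ ⟨s, hs, rfl⟩
      rw [← map_pow]
      exact (QuotientGroup.eq_one_iff _).2 (hKK.pow s hs)) ⟨c, hc'⟩
      ((mem_inv_map_iff U' V ⟨c, hc'⟩).2 hc)
    rw [hN]
    exact ⟨_, h3, rfl⟩
  · unfold nrmGrp
    rw [AddSubgroup.closure_le]
    rintro _ ⟨a, ha, rfl⟩
    exact nrm_mem_inv hfin ha
  · intro a ha
    exact AddSubgroup.subset_closure ⟨a, ha, rfl⟩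

end

end Fermat.Agent.S55Lib
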