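import Fermat.Agent.S55.GU.SplitNorm
import Fermat.Agent.S55.GU.Iota

/-! # S55 GU (SP3): classes of ideles supported at completely split places are norms -/

set_option autoImplicit false
set_option linter.unusedSectionVars false
set_option linter.unusedVariables false
set_option linter.style.haveILetI false

namespace Fermat.Agent.S55Lib

noncomputable section

open groupCohomology

variable (S : Finset Nat.Primes) (F : IntermediateField ℚ Qbar)

theorem iotaF_mem_nrmGrp [FiniteDimensional ℚ F] (hF : F.fixingSubgroup ∈ (levS S).mem)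
    (U' : Subgroup GQ) (hU' : U' ∈ (levS S).mem) (hle : U' ≤ F.fixingSubgroup)
    (hsplit : ∀ q ∈ S, ∀ (g : GQ) (h : Gq q), g⁻¹ * rq q h * g ∈ F.fixingSubgroup →
      g⁻¹ * rq q h * g ∈ U')
    (y : ↥(JF F)) (hy : (y : JJ) ∈ JT S) :
    iotaF S F hF (Additive.ofMul y) ∈ nrmGrp S U' F.fixingSubgroup := by
  have hU'' := hU'
  obtain ⟨K, hKfd, hKst, hKur, rfl⟩ := hU'
  have hFK : F ≤ K := by
    have h1 : IntermediateField.fixedField F.fixingSubgroup ≤
        IntermediateField.fixedField K.fixingSubgroup := IntermediateField.fixedField_antitone hle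
    rwa [InfiniteGalois.fixedField_fixingSubgroup, InfiniteGalois.fixedField_fixingSubgroup] at h1
  obtain ⟨z, hz, hzy⟩ := exists_nrm_of_split S F K hFK hKst hsplit y ⟨y.2, hy⟩
  have hfin : K.fixingSubgroup.relIndex F.fixingSubgroup ≠ 0 := by
    have := finiteIndex_fix K
    have := Subgroup.isFiniteRelIndex_of_finiteIndex (H := K.fixingSubgroup)
      (K := F.fixingSubgroup)
    exact Subgroup.relIndex_ne_zero
  apply AddSubgroup.subset_closure
  refine ⟨iotaF S K hU'' (Additive.ofMul ⟨z, hz⟩), iotaF_mem_inv S K hU'' _, ?_⟩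
  show nrm K.fixingSubgroup F.fixingSubgroup
    (JJStoCSh S (JFtoJJS S K hU'' (Additive.ofMul ⟨z, hz⟩))) = JJStoCSh S (JFtoJJS S F hF _)
  rw [← nrm_map (JJStoCSh S) (JJStoCSh_equivar S) _ _ hfin]
  congr 1
  apply Subtype.ext
  have h2 := nrm_map (WSm (levS S) (Additive JJ)).subtype (fun g a => rfl)
    K.fixingSubgroup F.fixingSubgroup hfin (JFtoJJS S K hU'' (Additive.ofMul ⟨z, hz⟩))
  exact h2.trans hzy

end

end Fermat.Agent.S55Lib
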