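import Fermat.Agent.S55.GU.ArDelta
import Fermat.Agent.S55.G.LocFix
import Fermat.Agent.S55.G.LocSurj

/-! # S55 GU (SP1): the places above `S` split completely in `F(V_S^{1/p})` -/

set_option autoImplicit false
set_option linter.unusedSectionVars false
set_option linter.unusedVariables false
set_option linter.style.haveILetI false

namespace Fermat.Agent.S55Lib

noncomputable section

open groupCohomology

variable {p : ℕ} [Fact p.Prime] (S : Finset Nat.Primes) (F : IntermediateField ℚ Qbar)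

/-- `β = ι(g ξ)`, `β^p = z_v^p`, so `β = ζ' z_v ∈ F_v` (`cmp_mem_locF`, the `p`-th roots of `1` of
`Ω_q` are the `ι(g ζ)`); `h` fixes `F_v` (`mem_fixingSubgroup_locF_iff`). -/
theorem split_kumU [FiniteDimensional ℚ F] (hμ : HasMu p F) (q : Nat.Primes) (hq : q ∈ S)
    (g : GQ) (h : Gq q) (hh : g⁻¹ * rq q h * g ∈ F.fixingSubgroup) :
    g⁻¹ * rq q h * g ∈ kumU p F.fixingSubgroup (VSg p S F) := by
  have hp : p.Prime := Fact.out
  refine ⟨hh, fun ξ hξ => ?_⟩
  obtain ⟨z, hz, hzl⟩ := VSg_local S F _ hξ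
  have h1 := hzl q hq g
  set w : Om q := ((cmp z q g : (Om q)ˣ) : Om q) with hw
  have hw0 : w ≠ 0 := (cmp z q g).ne_zero
  have hwF : w ∈ locF q g F := cmp_mem_locF F z hz q g
  set β : Om q := iq q (g (ξ : Qbar)) with hβ
  have h2 : β ^ p = w ^ p := by
    rw [← h1, hβ, ← map_pow, ← map_pow]
    rfl
  -- a primitive root of unity
  haveI : NeZero ((p : ℕ) : ℚ) := ⟨by exact_mod_cast hp.ne_zero⟩
  obtain ⟨ζ0, hζ0⟩ := HasEnoughRootsOfUnity.exists_primitiveRoot Qbar p
  have hζ0F : ζ0 ∈ F := hμ ζ0 hζ0.pow_eq_one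
  have hinj : Function.Injective (fun x : Qbar => iq q (g x)) :=
    (iq q).toRingHom.injective.comp g.injective
  have hζ1 : IsPrimitiveRoot (iq q (g ζ0)) p :=
    hζ0.map_of_injective (f := ((iq q).toRingHom.comp (g : Qbar →+* Qbar))) hinj
  have h3 : (β / w) ^ p = 1 := by
    rw [div_pow, h2, div_self (pow_ne_zero _ hw0)]
  obtain ⟨i, -, hi⟩ := hζ1.eq_pow_of_pow_eq_one h3
  have hβF : β ∈ locF q g F := by
    have h4 : β = (iq q (g ζ0)) ^ i * w := by
      rw [hi, div_mul_cancel₀ _ hw0]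
    rw [h4]
    exact mul_mem (pow_mem (iq_mem_locF q g F hζ0F) i) hwF
  have hfix : h β = β := by
    have h5 := (mem_fixingSubgroup_locF_iff q g F h).2 hh
    rw [IntermediateField.mem_fixingSubgroup_iff] at h5
    exact h5 β hβF
  apply Units.ext
  show (g⁻¹ * rq q h * g) (ξ : Qbar) = (ξ : Qbar)
  apply hinj
  show iq q (g ((g⁻¹ * rq q h * g) (ξ : Qbar))) = iq q (g (ξ : Qbar))
  have h6 : g ((g⁻¹ * rq q h * g) (ξ : Qbar)) = rq q h (g (ξ : Qbar)) := by
    show g (g⁻¹ (rq q h (g (ξ : Qbar)))) = _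
    exact g.apply_symm_apply _
  rw [h6, iq_rq]
  exact hfix

end

end Fermat.Agent.S55Lib
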