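import Fermat.Agent.S55.GU.Base
import Fermat.Agent.S55.G2.IdeleRep
import Fermat.Agent.S55.G1b.Eqv
import Fermat.Agent.S55.G1b.Glue

/-! # S55 GU (SP2): ideles supported at completely split places are norms -/

set_option autoImplicit false
set_option linter.unusedSectionVars false
set_option linter.unusedVariables false
set_option linter.style.haveILetI false

namespace Fermat.Agent.S55Lib

noncomputable section

open groupCohomology

lemma SP2_cmp_prod {ι : Type} (s : Finset ι) (f : ι → JJ) (q : Nat.Primes) (g : GQ) :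
    cmp (∏ i ∈ s, f i) q g = ∏ i ∈ s, cmp (f i) q g := by
  classical
  induction s using Finset.induction_on with
  | empty => simp
  | insert a s ha ih => rw [Finset.prod_insert ha, Finset.prod_insert ha, cmp_mul, ih]

variable (S : Finset Nat.Primes) (F : IntermediateField ℚ Qbar)

/-- ideles supported at completely split places are norms -/
theorem exists_nrm_of_split [FiniteDimensional ℚ F] (K : IntermediateField ℚ Qbar)
    [FiniteDimensional ℚ K] (hFK : F ≤ K) (hK : StableF K)
    (hsplit : ∀ q ∈ S, ∀ (g : GQ) (h : Gq q), g⁻¹ * rq q h * g ∈ F.fixingSubgroup →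
      g⁻¹ * rq q h * g ∈ K.fixingSubgroup)
    (y : JJ) (hy : y ∈ JSF S F) :
    ∃ z ∈ JF K, nrm K.fixingSubgroup F.fixingSubgroup (Additive.ofMul z) = Additive.ofMul y := by
  classical
  have hUV : K.fixingSubgroup ≤ F.fixingSubgroup := IntermediateField.fixingSubgroup_antitone hFK
  have hUn : K.fixingSubgroup.Normal := normal_fix K hK
  obtain ⟨ρ, hρ1, hρ2⟩ := exists_placeRep F
  have hyF : y ∈ JF F := hy.1
  have hyK : y ∈ JF K := fun s hs => hyF s (hUV hs)
  let ζ : ∀ q : Nat.Primes, GQ → (Om q)ˣ := fun q g =>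
    if q ∈ S ∧ SamePlace q K (ρ q g) g then cmp y q g else 1
  have hζeq : ∀ q, IsEqv q K (ζ q) := by
    intro q h g s hs
    have h1 : SamePlace q K g (rq q h * g * s) := ⟨h, s, hs, rfl⟩
    have h2 : SamePlace q F g (rq q h * g * s) := ⟨h, s, hUV hs, rfl⟩
    have h3 : ρ q (rq q h * g * s) = ρ q g := (hρ2 q _ _ h2).symm
    have h4 : SamePlace q K (ρ q g) (rq q h * g * s) ↔ SamePlace q K (ρ q g) g :=
      ⟨fun H => H.trans h1.symm, fun H => H.trans h1⟩
    show (if q ∈ S ∧ SamePlace q K (ρ q (rq q h * g * s)) (rq q h * g * s) then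
      cmp y q (rq q h * g * s) else 1) = h • (if q ∈ S ∧ SamePlace q K (ρ q g) g then
      cmp y q g else 1)
    rw [h3, h4]
    by_cases H : q ∈ S ∧ SamePlace q K (ρ q g) g
    · rw [if_pos H, if_pos H]
      exact cmp_isEqv hyK q h g s hs
    · rw [if_neg H, if_neg H, smul_one]
  have hζfin : {q : Nat.Primes | ¬ IsUnitVal q (ζ q)}.Finite := by
    refine (Finset.finite_toSet S).subset ?_
    intro q hq
    by_contra hcon
    apply hq
    intro g
    show ‖(((if q ∈ S ∧ SamePlace q K (ρ q g) g then cmp y q g else 1 : (Om q)ˣ)) : Om q)‖ = 1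
    rw [if_neg (fun H => hcon (Finset.mem_coe.2 H.1))]
    simp
  obtain ⟨z, hz, hzc⟩ := exists_idele_of_family K ζ hζeq hζfin
  refine ⟨z, hz, ?_⟩
  have hfin : K.fixingSubgroup.relIndex F.fixingSubgroup ≠ 0 := by
    have := finiteIndex_fix K
    have := Subgroup.isFiniteRelIndex_of_finiteIndex (H := K.fixingSubgroup)
      (K := F.fixingSubgroup)
    exact Subgroup.relIndex_ne_zero
  have := NR_finite hfin
  let _ : Fintype (F.fixingSubgroup ⧸ K.fixingSubgroup.subgroupOf F.fixingSubgroup) :=
    Fintype.ofFinite _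
  unfold nrm
  rw [finsum_eq_sum_of_fintype]
  have e1 : (∑ x : F.fixingSubgroup ⧸ K.fixingSubgroup.subgroupOf F.fixingSubgroup,
      ((Quotient.out x : F.fixingSubgroup) : GQ) • (Additive.ofMul z : Additive JJ)) =
      Additive.ofMul (∏ x : F.fixingSubgroup ⧸ K.fixingSubgroup.subgroupOf F.fixingSubgroup,
        ((Quotient.out x : F.fixingSubgroup) : GQ) • z) := by
    rw [ofMul_prod]
    rfl
  rw [e1]
  congr 1
  apply JJ.ext
  intro q g
  rw [SP2_cmp_prod]
  simp only [cmp_smul, hzc]
  by_cases hq : q ∈ S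
  · -- the unique coset
    have hρg : ∀ t : F.fixingSubgroup, ρ q (g * (t : GQ)) = ρ q g := fun t =>
      (hρ2 q _ _ ⟨1, t, t.2, by simp⟩).symm
    have hyg : ∀ t : F.fixingSubgroup, cmp y q (g * (t : GQ)) = cmp y q g := fun t => by
      rw [← cmp_smul, hyF t t.2]
    obtain ⟨h, s, hs, hg⟩ := hρ1 q g
    set x0 : F.fixingSubgroup ⧸ K.fixingSubgroup.subgroupOf F.fixingSubgroup :=
      QuotientGroup.mk (⟨s, hs⟩⁻¹ : F.fixingSubgroup) with hx0
    have hP : ∀ x : F.fixingSubgroup ⧸ K.fixingSubgroup.subgroupOf F.fixingSubgroup,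
        SamePlace q K (ρ q g) (g * ((Quotient.out x : F.fixingSubgroup) : GQ)) ↔ x = x0 := by
      intro x
      have hx0' : SamePlace q K (ρ q g) (g * s⁻¹) := ⟨h, 1, one_mem _, by
        conv_lhs => rw [hg]
        group⟩
      constructor
      · rintro ⟨h', u', hu', e'⟩
        -- `g * t = r h' ρ u'`, `g * s⁻¹ = r h ρ`
        set t : GQ := ((Quotient.out x : F.fixingSubgroup) : GQ) with ht
        have ht' : t ∈ F.fixingSubgroup := (Quotient.out x : F.fixingSubgroup).2
        have e2 : (ρ q g)⁻¹ * rq q (h'⁻¹ * h) * ρ q g = u' * t⁻¹ * s⁻¹ := by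
          have e3 : rq q h' * ρ q g = g * t * u'⁻¹ := by rw [e']; group
          have e4 : rq q h * ρ q g = g * s⁻¹ := by
            conv_rhs => rw [hg]
            group
          have e5 : rq q (h'⁻¹ * h) * ρ q g = (rq q h')⁻¹ * (rq q h * ρ q g) := by
            rw [map_mul, map_inv]; group
          have e6 : (ρ q g)⁻¹ * (rq q h')⁻¹ = (rq q h' * ρ q g)⁻¹ := by group
          rw [mul_assoc, e5, ← mul_assoc, e6, e3, e4]
          group
        have e7 : u' * t⁻¹ * s⁻¹ ∈ K.fixingSubgroup := by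
          rw [← e2]
          apply hsplit q hq
          rw [e2]
          exact mul_mem (mul_mem (hUV hu') (inv_mem ht')) (inv_mem hs)
        have e8 : t⁻¹ * s⁻¹ ∈ K.fixingSubgroup := by
          have := mul_mem (inv_mem hu') e7
          have e9 : u'⁻¹ * (u' * t⁻¹ * s⁻¹) = t⁻¹ * s⁻¹ := by group
          rwa [e9] at this
        rw [← QuotientGroup.out_eq' x, hx0, QuotientGroup.eq, Subgroup.mem_subgroupOf]
        exact e8
      · rintro rfl
        have h1 : (Quotient.out x0 : F.fixingSubgroup)⁻¹ * (⟨s, hs⟩⁻¹ : F.fixingSubgroup) ∈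
            K.fixingSubgroup.subgroupOf F.fixingSubgroup := by
          rw [← QuotientGroup.eq, QuotientGroup.out_eq']
        rw [Subgroup.mem_subgroupOf] at h1
        have h2 : (((Quotient.out x0 : F.fixingSubgroup) : GQ))⁻¹ * s⁻¹ ∈ K.fixingSubgroup := h1
        refine hx0'.trans ⟨1, _, inv_mem h2, ?_⟩
        rw [map_one]
        group
    have e10 : ∀ x : F.fixingSubgroup ⧸ K.fixingSubgroup.subgroupOf F.fixingSubgroup,
        ζ q (g * ((Quotient.out x : F.fixingSubgroup) : GQ)) = if x = x0 then cmp y q g else 1 := by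
      intro x
      show (if q ∈ S ∧ SamePlace q K (ρ q (g * ((Quotient.out x : F.fixingSubgroup) : GQ)))
        (g * ((Quotient.out x : F.fixingSubgroup) : GQ)) then
        cmp y q (g * ((Quotient.out x : F.fixingSubgroup) : GQ)) else 1) = _
      rw [hρg, hyg, hP]
      simp only [hq, true_and]
    simp only [e10]
    rw [Finset.prod_ite_eq' Finset.univ x0 (fun _ => cmp y q g)]
    simp
  · have e10 : ∀ g', ζ q g' = 1 := fun g' => if_neg (fun H => hq H.1)
    simp only [e10, Finset.prod_const_one]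
    exact (hy.2 q hq g).symm

end

end Fermat.Agent.S55Lib
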