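import Fermat.Agent.S55.GU.Hyps
import Fermat.Agent.S55.GU.AbsPow
import Fermat.Agent.S55.GU.AbsRel
import Fermat.Agent.S55.GU.AbsCount1
import Fermat.Agent.S55.GU.AbsCount2
import Fermat.Agent.S55.GU.AbsTor
import Fermat.Agent.S55.GU.AbsDual
import Fermat.Agent.S55.GU.AbsImage
import Fermat.Agent.S55.GU.AbsTransv
import Fermat.Agent.S55.GU.KKBasic
import Fermat.Agent.S55.GU.KKKer
import Fermat.Agent.S55.GU.KumRoot
import Fermat.Agent.S55.GU.KumGroup
import Fermat.Agent.S55.GU.KumOpen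
import Fermat.Agent.S55.GU.KumInertia
import Fermat.Agent.S55.GU.KumDeg
import Fermat.Agent.S55.GU.ArUnit
import Fermat.Agent.S55.GU.ArDelta
import Fermat.Agent.S55.GU.ArFinite
import Fermat.Agent.S55.GU.Iota
import Fermat.Agent.S55.GU.IotaIndex
import Fermat.Agent.S55.GU.NrmIndex
import Fermat.Agent.S55.GU.SplitKum
import Fermat.Agent.S55.GU.SplitNorm
import Fermat.Agent.S55.GU.SplitCSh

/-!
# S55, root `G_levelU` (existence theorem): assembly
-/

set_option autoImplicit false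
set_option linter.unusedSectionVars false
set_option linter.unusedVariables false
set_option linter.style.haveILetI false

namespace Fermat.Agent.S55Lib

noncomputable section

open groupCohomology ExtCitation

variable {p : ℕ} [Fact p.Prime] (S : Finset Nat.Primes)

theorem isKK_kumU (F : IntermediateField ℚ Qbar) (hpS : pPrime p ∈ S) [FiniteDimensional ℚ F]
    (hst : StableF F) (hur : F.IsUnramifiedOutside S) (hμ : HasMu p F) (Δ : Subgroup Qbarˣ)
    (hle : Fpg p F ≤ Δ) (hΔ : Δ ≤ D1g p S F) (hstab : ∀ g : GQ, ∀ x ∈ Δ, g • x ∈ Δ)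
    (hfin : (Fpg p F).relIndex Δ ≠ 0) :
    IsKK p S F.fixingSubgroup (kumU p F.fixingSubgroup Δ) := by
  haveI := normal_fix F hst
  haveI := kumU_normal (p := p) F.fixingSubgroup Δ hstab
  obtain ⟨K, hK, hKle⟩ := kumU_open F hμ Δ hle hfin
  have hΔF : Δ ≤ FX F := hΔ.trans inf_le_left
  exact ⟨PL_mem_levS_of_le S _ K hK hKle (fun q hq A hA =>
      kumU_inertia S F hpS hur Δ (fun x hx => D1g_norm S F x (hΔ hx)) q hq A hA),
    kumU_le _ _ _, fun s hs t ht => kumU_comm F hμ Δ hΔF s t hs ht,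
    fun s hs => kumU_pow F hμ Δ hΔF s hs⟩

/-- the arithmetic inputs (roots of chapter G1) -/
structure G1Inputs (p : ℕ) [Fact p.Prime] : Prop where
  TU : ∀ (F : IntermediateField ℚ Qbar) [FiniteDimensional ℚ F], HasMu p F →
    ∀ (T : Finset Nat.Primes) (t : ℕ), IsPlaceCount F T t →
    Nat.card (EFT F T ⧸ (powMonoidHom p : EFT F T →* EFT F T).range) =
      p ^ (t + Module.finrank ℚ F / 2) ∧ 2 ∣ Module.finrank ℚ F
  JTc : ∀ (F : IntermediateField ℚ Qbar) [FiniteDimensional ℚ F], HasMu p F →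
    ∀ (T : Finset Nat.Primes), (⟨p, Fact.out⟩ : Nat.Primes) ∈ T → ∀ (t : ℕ), IsPlaceCount F T t →
    Nat.card (↥(JF F ⊓ JT T) ⧸ (powMonoidHom p : ↥(JF F ⊓ JT T) →* ↥(JF F ⊓ JT T)).range) =
      p ^ (2 * t + Module.finrank ℚ F)
  CN : ∀ (F : IntermediateField ℚ Qbar) [FiniteDimensional ℚ F],
    ∃ h : ℕ, 0 < h ∧ ∀ x ∈ JF F, ∃ a ∈ FX F, ∃ u ∈ JF F ⊓ UId ∅, x ^ h = diag a * u
  CT : ∀ (F : IntermediateField ℚ Qbar) [FiniteDimensional ℚ F],
    ∃ T₀ : Finset Nat.Primes, ∀ T : Finset Nat.Primes, T₀ ⊆ T → ∀ x ∈ JF F,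
      ∃ a ∈ FX F, ∃ y ∈ JF F ⊓ JT T, ∃ u ∈ JF F ⊓ UId T, x = diag a * y * u
  PC : ∀ (F : IntermediateField ℚ Qbar) [FiniteDimensional ℚ F] (T : Finset Nat.Primes),
    ∃ t, IsPlaceCount F T t

/-- **existence theorem**, on the class module property of `C♯` and the roots of G1 -/
theorem G_levelU_of (hpS : pPrime p ∈ S) (hCM : HasCM p S) (hIm : HasImage p S)
    (hG1 : G1Inputs p) (V : Subgroup GQ) (hV : V ∈ (levS S).mem) (hμ : FixesMu p V) :
    ∃ U ∈ (levS S).mem, U ≤ V ∧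
      (∀ (N : Type) [AddCommGroup N] [DistribMulAction GQ N], (∀ n : N, p • n = 0) →
        (∀ s ∈ V, ∀ n : N, s • n = n) → ∀ f ∈ LZ1 (levS S) N, ∀ s ∈ U, f s = 0) ∧
      (∀ c ∈ inv U (CSh S), ∃ c' ∈ inv V (CSh S), ∃ R : Finset GQ,
        (∀ s ∈ V, ∃! t, t ∈ R ∧ t⁻¹ * s ∈ U) ∧ (∀ t ∈ R, t ∈ V) ∧ ∑ t ∈ R, t • c = p • c') := by
  classical
  have hV' := hV
  obtain ⟨F, hFfin, hFst, hFur, rfl⟩ := hV
  haveI := hFfin
  have hS : S.Nonempty := ⟨_, hpS⟩
  have hp0 : p ≠ 0 := (Fact.out : p.Prime).ne_zero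
  have hμF : HasMu p F := hasMu_of_fixesMu F hμ
  obtain ⟨t, ht⟩ := hG1.PC F S
  obtain ⟨he, k, hk⟩ := hG1.TU F hμF S t ht
  have hj := hG1.JTc F hμF S hpS t ht
  obtain ⟨h, hh0, hh⟩ := hG1.CN F
  obtain ⟨T₀, hT₀⟩ := hG1.CT F
  obtain ⟨t', ht'⟩ := hG1.PC F (T₀ ∪ S)
  have hjT := hG1.JTc F hμF (T₀ ∪ S) (Finset.mem_union_right _ hpS) t' ht'
  -- the numbers
  set D1 := (Fpg p F).relIndex (D1g p S F) with hD1
  set b := (Fpg p F).relIndex (VSg p S F) with hb
  set B := (PFg F ⊔ USF S F ⊔ JpF p F).relIndex (JF F) with hB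
  set c := (PFg F ⊔ USF S F ⊔ JSF S F ⊔ JpF p F).relIndex (JF F) with hc
  set e := p ^ (t + Module.finrank ℚ F / 2) with hedef
  have he0 : e ≠ 0 := pow_ne_zero _ hp0
  have hPJ : (FX F).map diag ≤ JF F := by
    rintro _ ⟨a, ha, rfl⟩
    exact (diag_mem_JF_iff F a).2 ha
  have hc0 : c ≠ 0 := GU_c_ne_zero S F (T₀ ∪ S) Finset.subset_union_right
    (hT₀ _ Finset.subset_union_left) (by rw [hjT]; exact pow_ne_zero _ hp0)
  have h2 : D1 * B = b * (e * e) * c := by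
    have := GU_count2 p diag (FX F) (JF F) (USF S F) (JSF S F) hPJ inf_le_left inf_le_left
      (fun y hy hy' => GU_hJsp S F y hy hy')
    rw [← GU_card_quot_pow p (JSF S F)] at this
    have hj' : Nat.card (↥(JSF S F) ⧸ (powMonoidHom p : ↥(JSF S F) →* ↥(JSF S F)).range) = e * e := by
      rw [show JSF S F = JF F ⊓ JT S from rfl, hj, hedef, ← pow_add]
      congr 1
      omega
    rw [hj'] at this
    exact this
  have h1 : D1 = e * c := by
    have := GU_count1 p diag (FX F) (JF F) (USF S F) (JSF S F) hPJ inf_le_left inf_le_left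
      (fun z hz hz' => GU_hsat S F z hz hz')
    rw [GU_E_eq S F, ← GU_card_quot_pow p (EFT F S), he] at this
    have htor := GU_tor p (JF F) (PFg F ⊔ USF S F ⊔ JSF S F)
      (sup_le (sup_le hPJ inf_le_left) inf_le_left) h hh0
      (fun z hz => GU_exponent S F h hh z hz) hc0
    rw [show (FX F).map diag = PFg F from rfl, htor] at this
    exact this
  have hD10 : D1 ≠ 0 := by rw [h1]; exact mul_ne_zero he0 hc0
  have hb0 : b ≠ 0 := by
    intro h0
    have := Subgroup.relIndex_mul_relIndex (Fpg p F) (VSg p S F) (D1g p S F)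
      (Fpg_le_VSg S F) (VSg_le_D1g S F)
    rw [← hb, h0, zero_mul] at this
    exact hD10 this.symm
  have hB0 : B ≠ 0 := by
    intro h0
    rw [h0, mul_zero] at h2
    exact (mul_ne_zero (mul_ne_zero hb0 (mul_ne_zero he0 he0)) hc0) h2.symm
  -- `K₂`
  have hKK2 := isKK_kumU S F hpS hFst hFur hμF (VSg p S F) (Fpg_le_VSg S F) (VSg_le_D1g S F)
    (fun g x hx => VSg_stable S F hFst g x hx) hb0
  have hbc : b ≤ c := by
    obtain ⟨i1, i2, i3, -⟩ := nrmGrp_index S hCM _ _ hV' hμ hKK2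
    calc b ≤ (kumU p F.fixingSubgroup (VSg p S F)).relIndex F.fixingSubgroup :=
          relIndex_le_kumU F hμF _ (Fpg_le_VSg S F) inf_le_left hKK2.relIndex_ne_zero
      _ = (nrmGrp S (kumU p F.fixingSubgroup (VSg p S F)) F.fixingSubgroup).relIndex
            (inv F.fixingSubgroup (CSh S)) := i1.symm
      _ ≤ c := relIndex_le_c S F hS hV' hμ hIm hc0 _ i2 (fun y hy =>
          iotaF_mem_nrmGrp S F hV' _ hKK2.mem hKK2.le
            (fun q hq g h hh => split_kumU S F hμF q hq g h hh) y hy)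
  have hBD : B ≤ D1 := by
    have h3 : D1 * B ≤ D1 * D1 := by
      rw [h2, h1]
      calc b * (e * e) * c ≤ c * (e * e) * c := by gcongr
        _ = e * c * (e * c) := by ring
    exact Nat.le_of_mul_le_mul_left h3 (Nat.pos_of_ne_zero hD10)
  -- `K₁`
  have hKK1 := isKK_kumU S F hpS hFst hFur hμF (D1g p S F)
    ((Fpg_le_VSg S F).trans (VSg_le_D1g S F)) le_rfl
    (fun g x hx => D1g_stable S F hFst g x hx) hD10
  have hD1le : D1 ≤ (kumU p F.fixingSubgroup (D1g p S F)).relIndex F.fixingSubgroup :=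
    relIndex_le_kumU F hμF _ ((Fpg_le_VSg S F).trans (VSg_le_D1g S F)) inf_le_left
      hKK1.relIndex_ne_zero
  have hpB := relIndex_pGrp S F hS hV' hμ hIm
  -- the bound
  have hbound : ∀ U', IsKK p S F.fixingSubgroup U' → U'.relIndex F.fixingSubgroup ≤ B := by
    intro U' hU'
    obtain ⟨i1, i2, -, -⟩ := nrmGrp_index S hCM _ _ hV' hμ hU'
    rw [← i1, hB, ← hpB]
    exact AddSubgroup.relIndex_le_of_le_left i2 (by rw [hpB]; exact hB0)
  obtain ⟨U, hU, hUmin⟩ := exists_min_KK S F.fixingSubgroup hV' B hbound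
  obtain ⟨i1, i2, i3, i4⟩ := nrmGrp_index S hCM _ _ hV' hμ hU
  have hUB : U.relIndex F.fixingSubgroup = B := by
    apply le_antisymm (hbound U hU)
    calc B ≤ D1 := hBD
      _ ≤ _ := hD1le
      _ ≤ U.relIndex F.fixingSubgroup :=
        Subgroup.relIndex_le_of_le_left (hUmin _ hKK1) hU.relIndex_ne_zero
  have hNle : nrmGrp S U F.fixingSubgroup ≤ pGrp p S F.fixingSubgroup := by
    have h3 := AddSubgroup.relIndex_mul_relIndex (pGrp p S F.fixingSubgroup)
      (nrmGrp S U F.fixingSubgroup) (inv F.fixingSubgroup (CSh S)) i2 i3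
    rw [i1, hpB, hUB] at h3
    have h4 : (pGrp p S F.fixingSubgroup).relIndex (nrmGrp S U F.fixingSubgroup) = 1 := by
      have : (pGrp p S F.fixingSubgroup).relIndex (nrmGrp S U F.fixingSubgroup) * B = 1 * B := by
        rw [one_mul]; exact h3
      exact Nat.eq_of_mul_eq_mul_right (Nat.pos_of_ne_zero hB0) this
    exact AddSubgroup.relIndex_eq_one.1 h4
  obtain ⟨R, hR1, hR2, hR3⟩ := GU_exists_transversal U F.fixingSubgroup hU.le hU.relIndex_ne_zero
  refine ⟨U, hU.mem, hU.le, ?_, ?_⟩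
  · intro N _ _ hpN hVN f hf s hs
    obtain ⟨U', hU', hf0⟩ := isKK_ker S F.fixingSubgroup hV' N hpN hVN f hf
    exact hf0 s (hUmin U' hU' hs)
  · intro x hx
    obtain ⟨c', hc', hcx⟩ := hNle (i4 x hx)
    exact ⟨c', hc', R, hR1, hR2, by rw [hR3 (CSh S) x hx]; exact hcx.symm⟩

end

end Fermat.Agent.S55Lib
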